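/-
Functions on `Gal(ℚ̄/ℚ)` of finite level modulo every power of the maximal ideal, with values in a
finite module, take values in a submodule as soon as they do at powers of Frobenius elements.
-/
import Fermat.Agent.Density.Qbar
import Fermat.Agent.Deform.MatRep
import Mathlib.RingTheory.Filtration

set_option autoImplicit false

noncomputable section

namespace Fermat.Agent.Datum

open IsLocalRing Deform

variable {𝒪 : Type*} [CommRing 𝒪] [IsLocalRing 𝒪] [IsNoetherianRing 𝒪]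
  {B : Type*} [AddCommGroup B] [Module 𝒪 B]

/-- Krull intersection relative to a submodule. -/
theorem mem_of_forall_mem_sup_pow_smul {Λ W : Submodule 𝒪 B} (hΛ : Λ.FG) {x : B} (hx : x ∈ Λ)
    (h : ∀ n : ℕ, ∃ w ∈ W, w ∈ Λ ∧ x - w ∈ maximalIdeal 𝒪 ^ n • Λ) : x ∈ W := by
  have : Module.Finite 𝒪 Λ := Module.Finite.iff_fg.2 hΛ
  let W' : Submodule 𝒪 Λ := W.comap Λ.subtype
  have hq : W'.mkQ ⟨x, hx⟩ ∈ ⨅ n : ℕ, maximalIdeal 𝒪 ^ n • (⊤ : Submodule 𝒪 (Λ ⧸ W')) := by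
    refine Submodule.mem_iInf _ |>.2 fun n => ?_
    obtain ⟨w, hw, hwΛ, hxw⟩ := h n
    have h1 : (⟨x, hx⟩ - ⟨w, hwΛ⟩ : Λ) ∈ maximalIdeal 𝒪 ^ n • (⊤ : Submodule 𝒪 Λ) :=
      (Submodule.mem_smul_top_iff _ _ _).2 hxw
    have h2 := Submodule.mem_map_of_mem (f := W'.mkQ) h1
    have h3 : W'.mkQ ⟨w, hwΛ⟩ = 0 := (Submodule.Quotient.mk_eq_zero _).2 hw
    rw [Submodule.map_smul'', map_sub, h3, sub_zero] at h2
    exact Submodule.smul_mono le_rfl le_top h2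
  rw [Ideal.iInf_pow_smul_eq_bot_of_isLocalRing _ (IsLocalRing.maximalIdeal.isMaximal 𝒪).ne_top,
    Submodule.mem_bot, Submodule.mkQ_apply, Submodule.Quotient.mk_eq_zero] at hq
  exact hq

/-- Artin–Rees: small elements of a submodule are small in the submodule. -/
theorem exists_pow_smul_inf_le {Λ W : Submodule 𝒪 B} (hΛ : Λ.FG) (hW : W ≤ Λ) :
    ∃ c : ℕ, ∀ n : ℕ, maximalIdeal 𝒪 ^ (n + c) • Λ ⊓ W ≤ maximalIdeal 𝒪 ^ n • W := by
  have : Module.Finite 𝒪 Λ := Module.Finite.iff_fg.2 hΛ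
  obtain ⟨c, hc⟩ := (maximalIdeal 𝒪).exists_pow_inf_eq_pow_smul (W.comap Λ.subtype)
  refine ⟨c, fun n x hx => ?_⟩
  obtain ⟨hx1, hx2⟩ := Submodule.mem_inf.1 hx
  have hxΛ : x ∈ Λ := hW hx2
  have h1 : (⟨x, hxΛ⟩ : Λ) ∈ maximalIdeal 𝒪 ^ (n + c) • (⊤ : Submodule 𝒪 Λ) ⊓
      W.comap Λ.subtype :=
    ⟨(Submodule.mem_smul_top_iff _ _ _).2 hx1, hx2⟩
  rw [hc _ (Nat.le_add_left c n), Nat.add_sub_cancel] at h1
  have h2 := Submodule.mem_map_of_mem (f := Λ.subtype) h1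
  rw [Submodule.map_smul''] at h2
  exact Submodule.smul_mono le_rfl
    ((Submodule.map_mono inf_le_right).trans (Submodule.map_comap_le _ _)) h2

/-- A function of finite level with values in the finite module `Λ` takes values in `W` as soon
as it does at all powers of Frobenius elements outside a finite set of primes. -/
theorem mem_of_forall_frobenius_pow {Λ W : Submodule 𝒪 B} (hΛ : Λ.FG) (f : GQ → B)
    (hmem : ∀ g, f g ∈ Λ)
    (hlev : ∀ n : ℕ, ∃ L : IntermediateField ℚ (AlgebraicClosure ℚ), FiniteDimensional ℚ L ∧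
      ∀ g h : GQ, (∀ x ∈ L, g x = h x) → f g - f h ∈ maximalIdeal 𝒪 ^ n • Λ)
    (S : Finset ℕ)
    (hF : ∀ p : ℕ, p.Prime → p ∉ S → ∀ A : ValuationSubring (AlgebraicClosure ℚ),
      A.LiesOverPrime p → ∀ σ : GQ, A.IsFrobeniusAt σ p → ∀ k : ℕ, f (σ ^ k) ∈ W)
    (g : GQ) : f g ∈ W := by
  refine mem_of_forall_mem_sup_pow_smul hΛ (hmem g) fun n => ?_
  obtain ⟨L, hL, hLlev⟩ := hlev n
  obtain ⟨p, hp, hpS, A, hA, σ, hσ, k, hk⟩ := Density.exists_frobenius_pow_eq L g S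
  exact ⟨_, hF p hp hpS A hA σ hσ k, hmem _, hLlev g _ fun x hx => (hk x hx).symm⟩

end Fermat.Agent.Datum
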