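/-
Structure of `heckeLocal N S 𝒪 θ`: quotient of the base algebra cut out by an idempotent,
generated by the image of the Hecke algebra, residue map, points.
-/
import Fermat.Prelude.Def_CuspForm_HeckeLocal

set_option autoImplicit false
set_option synthInstance.maxHeartbeats 400000
set_option linter.unusedSectionVars false

noncomputable section

namespace Fermat.Agent.Datum

open CuspForm IsLocalRing
open scoped TensorProduct

variable (N : ℕ) [NeZero N] (S : Set ℕ)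
  (𝒪 : Type) [CommRing 𝒪] [IsDomain 𝒪] [IsDiscreteValuationRing 𝒪]
  [IsAdicComplete (maximalIdeal 𝒪) 𝒪]
  (θ : heckeAlgebra N 2 S →+* ResidueField 𝒪)
  [Fact (HasIntegralStructure N 2)]

/-- `heckeLocal` is the factor of the base algebra cut out by an idempotent. -/
theorem exists_idempotent_heckeLocal :
    Function.Surjective (algebraMap (heckeBaseAlgebra N S 𝒪) (heckeLocal N S 𝒪 θ)) ∧
      ∃ e : heckeBaseAlgebra N S 𝒪, e * e = e ∧ ∀ y,
        algebraMap (heckeBaseAlgebra N S 𝒪) (heckeLocal N S 𝒪 θ) y = 0 ↔ e * y = 0 := by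
  classical
  have : Module.Finite 𝒪 (heckeBaseAlgebra N S 𝒪) :=
    inferInstanceAs (Module.Finite 𝒪 (𝒪 ⊗[ℤ] ↥(heckeLatticeAlgebra N S)))
  obtain ⟨-, hbij, -, -⟩ :=
    Algebra.finite_maximalSpectrum_and_bijective_localization_of_module_finite (𝒪 := 𝒪)
      (heckeBaseAlgebra N S 𝒪)
  let P : MaximalSpectrum (heckeBaseAlgebra N S 𝒪) :=
    ⟨heckeLocalIdeal N S 𝒪 θ, inferInstance⟩
  let ε : Localization.AtPrime P.asIdeal ≃ₐ[heckeBaseAlgebra N S 𝒪] heckeLocal N S 𝒪 θ :=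
    IsLocalization.algEquiv P.asIdeal.primeCompl _ _
  refine ⟨fun z => ?_, ?_⟩
  · obtain ⟨y, hy⟩ := hbij.2 (Function.update 0 P (ε.symm z))
    refine ⟨y, ?_⟩
    have h := congrFun hy P
    simp only [Function.update_self] at h
    rw [← ε.apply_symm_apply z, ← h]
    exact (ε.commutes y).symm
  · obtain ⟨e, he⟩ := hbij.2 (Pi.single P 1)
    refine ⟨e, hbij.1 ?_, fun y => ?_⟩
    · rw [map_mul, he]
      funext Q
      rcases eq_or_ne Q P with rfl | hQ
      · simp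
      · simp [hQ]
    rw [← hbij.1.eq_iff (a := e * y), map_mul, he, map_zero, ← ε.commutes y,
      map_eq_zero_iff ε ε.injective]
    constructor
    · intro h
      funext Q
      rcases eq_or_ne Q P with rfl | hQ
      · simp [h]
      · simp [hQ]
    · intro h
      simpa using congrFun h P

theorem heckeLocal_surjective (z : heckeLocal N S 𝒪 θ) : ∃ x : 𝒪 ⊗[ℤ] ↥(heckeAlgebra N 2 S),
    algebraMap _ (heckeLocal N S 𝒪 θ) (latticeBaseChange N S 𝒪 x) = z := by
  obtain ⟨y, rfl⟩ := (exists_idempotent_heckeLocal N S 𝒪 θ).1 z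
  obtain ⟨x, rfl⟩ := latticeBaseChange_surjective N S 𝒪 y
  exact ⟨x, rfl⟩

theorem algebraMap_latticeBaseChange_tmul (a : 𝒪) (u : heckeAlgebra N 2 S) :
    algebraMap _ (heckeLocal N S 𝒪 θ) (latticeBaseChange N S 𝒪 (a ⊗ₜ u)) =
      algebraMap 𝒪 (heckeLocal N S 𝒪 θ) a * heckeLocal.π N S 𝒪 θ u := by
  have h : a ⊗ₜ[ℤ] u = algebraMap 𝒪 (𝒪 ⊗[ℤ] ↥(heckeAlgebra N 2 S)) a * (1 ⊗ₜ u) := by
    rw [Algebra.TensorProduct.algebraMap_apply, Algebra.TensorProduct.tmul_mul_tmul]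
    simp
  rw [h, map_mul, map_mul, latticeBaseChange_algebraMap, ← IsScalarTower.algebraMap_apply]
  rfl

theorem residue_latticeBaseChange (x : 𝒪 ⊗[ℤ] ↥(heckeAlgebra N 2 S)) :
    residue (heckeLocal N S 𝒪 θ)
        (algebraMap _ (heckeLocal N S 𝒪 θ) (latticeBaseChange N S 𝒪 x)) =
      ResidueField.map (algebraMap 𝒪 (heckeLocal N S 𝒪 θ)) (residualCharacter N S 𝒪 θ x) := by
  obtain ⟨a, ha⟩ := residue_surjective (residualCharacter N S 𝒪 θ x)
  have hk : x - algebraMap 𝒪 _ a ∈ heckeCharKernel N S 𝒪 θ := by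
    rw [mem_heckeCharKernel_iff, map_sub, residualCharacter_algebraMap, ha, sub_self]
  have hm : algebraMap _ (heckeLocal N S 𝒪 θ) (latticeBaseChange N S 𝒪 (x - algebraMap 𝒪 _ a)) ∈
      maximalIdeal (heckeLocal N S 𝒪 θ) := by
    rw [mem_maximalIdeal, mem_nonunits_iff,
      IsLocalization.AtPrime.isUnit_to_map_iff (heckeLocal N S 𝒪 θ) (heckeLocalIdeal N S 𝒪 θ),
      Ideal.mem_primeCompl_iff, not_not]
    exact Ideal.mem_map_of_mem _ hk
  rw [← ha, ResidueField.map_residue, ← sub_eq_zero, ← map_sub, residue_eq_zero_iff]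
  rwa [map_sub, map_sub, latticeBaseChange_algebraMap, ← IsScalarTower.algebraMap_apply] at hm

theorem residue_heckeLocal_π (u : heckeAlgebra N 2 S) :
    residue (heckeLocal N S 𝒪 θ) (heckeLocal.π N S 𝒪 θ u) =
      ResidueField.map (algebraMap 𝒪 (heckeLocal N S 𝒪 θ)) (θ u) := by
  refine (residue_latticeBaseChange N S 𝒪 θ ((1 : 𝒪) ⊗ₜ u)).trans ?_
  rw [residualCharacter_tmul, map_one, one_mul]

theorem residue_comp_algebraMap_surjective :
    Function.Surjective (residue (heckeLocal N S 𝒪 θ) ∘ algebraMap 𝒪 (heckeLocal N S 𝒪 θ)) := by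
  intro z
  obtain ⟨z, rfl⟩ := residue_surjective z
  obtain ⟨x, rfl⟩ := heckeLocal_surjective N S 𝒪 θ z
  obtain ⟨a, ha⟩ := residue_surjective (residualCharacter N S 𝒪 θ x)
  refine ⟨a, ?_⟩
  rw [residue_latticeBaseChange, ← ha, ResidueField.map_residue]
  rfl

theorem residueFieldMap_bijective :
    Function.Bijective (ResidueField.map (algebraMap 𝒪 (heckeLocal N S 𝒪 θ))) := by
  refine ⟨RingHom.injective _, fun z => ?_⟩
  obtain ⟨a, rfl⟩ := residue_comp_algebraMap_surjective N S 𝒪 θ z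
  exact ⟨residue 𝒪 a, ResidueField.map_residue _ a⟩

theorem adjoin_range_heckeLocal_π :
    Algebra.adjoin 𝒪 (Set.range (heckeLocal.π N S 𝒪 θ)) = ⊤ := by
  refine top_unique fun z hz => ?_
  clear hz
  obtain ⟨x, rfl⟩ := heckeLocal_surjective N S 𝒪 θ z
  induction x using TensorProduct.induction_on with
  | zero => rw [map_zero, map_zero]; exact zero_mem _
  | tmul a u =>
    rw [algebraMap_latticeBaseChange_tmul]
    exact mul_mem (Subalgebra.algebraMap_mem _ a) (Algebra.subset_adjoin ⟨u, rfl⟩)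
  | add x y hx hy => rw [map_add, map_add]; exact add_mem hx hy

/-- Integral lifts of `θ` factor through `heckeLocal`. -/
theorem exists_point_heckeLocal (χ : heckeAlgebra N 2 S →+* 𝒪)
    (hχ : ∀ t, residue 𝒪 (χ t) = θ t) :
    ∃ ψ : heckeLocal N S 𝒪 θ →ₐ[𝒪] 𝒪, ∀ t, ψ (heckeLocal.π N S 𝒪 θ t) = χ t := by
  let e : (𝒪 ⊗[ℤ] ↥(heckeAlgebra N 2 S)) ≃+* heckeBaseAlgebra N S 𝒪 :=
    RingEquiv.ofBijective (latticeBaseChange N S 𝒪)
      ⟨latticeBaseChange_injective N S 𝒪 Fact.out, latticeBaseChange_surjective N S 𝒪⟩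
  let φ : (𝒪 ⊗[ℤ] ↥(heckeAlgebra N 2 S)) →+* 𝒪 :=
    (Algebra.TensorProduct.productMap (AlgHom.id ℤ 𝒪) χ.toIntAlgHom).toRingHom
  have hφ : ∀ x, residue 𝒪 (φ x) = residualCharacter N S 𝒪 θ x := by
    intro x
    induction x using TensorProduct.induction_on with
    | zero => simp
    | tmul a u =>
      rw [residualCharacter_tmul, ← hχ u, ← map_mul]
      rfl
    | add x y hx hy => rw [map_add, map_add, map_add, hx, hy]
  have hu : ∀ y : (heckeLocalIdeal N S 𝒪 θ).primeCompl,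
      IsUnit (φ.comp e.symm.toRingHom (y : heckeBaseAlgebra N S 𝒪)) := by
    rintro ⟨y, hy⟩
    obtain ⟨x, rfl⟩ := e.surjective y
    show IsUnit (φ (e.symm (e x)))
    rw [e.symm_apply_apply]
    refine notMem_maximalIdeal.1 fun hm => hy (Ideal.mem_map_of_mem _ ?_)
    rw [mem_heckeCharKernel_iff, ← hφ, residue_eq_zero_iff]
    exact hm
  let ψ : heckeLocal N S 𝒪 θ →+* 𝒪 :=
    IsLocalization.lift (M := (heckeLocalIdeal N S 𝒪 θ).primeCompl) hu
  have hψ : ∀ x, ψ (algebraMap _ _ (latticeBaseChange N S 𝒪 x)) = φ x := by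
    intro x
    rw [IsLocalization.lift_eq hu]
    exact congrArg φ (e.symm_apply_apply x)
  refine ⟨{ ψ with commutes' := fun a => ?_ }, fun t => ?_⟩
  · show ψ (algebraMap 𝒪 (heckeLocal N S 𝒪 θ) a) = a
    rw [IsScalarTower.algebraMap_apply 𝒪 (heckeBaseAlgebra N S 𝒪) (heckeLocal N S 𝒪 θ),
      ← latticeBaseChange_algebraMap, hψ]
    show Algebra.TensorProduct.productMap (AlgHom.id ℤ 𝒪) χ.toIntAlgHom (a ⊗ₜ 1) = a
    simp
  · refine (hψ ((1 : 𝒪) ⊗ₜ t)).trans ?_
    show Algebra.TensorProduct.productMap (AlgHom.id ℤ 𝒪) χ.toIntAlgHom (1 ⊗ₜ t) = χ t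
    simp

end Fermat.Agent.Datum
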