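/-
Carayol's lemma for two dimensional representations with a split involution, by Wiles'
pseudo-representations: a representation over an overring with traces in a local ring `T`,
with a unit cross term, is conjugate to one over `T` given by explicit polynomials in the trace.
-/
import Mathlib.LinearAlgebra.Matrix.Charpoly.Coeff
import Mathlib.LinearAlgebra.Matrix.Trace
import Mathlib.RingTheory.LocalRing.RingHom.Basic
import Mathlib.Tactic.LinearCombination

set_option autoImplicit false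

namespace Fermat.Agent.Datum

open Matrix

section Defs

variable {G T : Type*} [Monoid G] [CommRing T]

/-- The `(0,0)` entry recovered from the trace, relative to an element acting by `diag(1,-1)`. -/
noncomputable def psA (t : G → T) (c : G) (σ : G) : T := Ring.inverse 2 * (t σ + t (c * σ))

/-- The `(1,1)` entry recovered from the trace. -/
noncomputable def psD (t : G → T) (c : G) (σ : G) : T := Ring.inverse 2 * (t σ - t (c * σ))

/-- The product `b(σ) c(τ)` recovered from the trace. -/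
noncomputable def psX (t : G → T) (c : G) (σ τ : G) : T :=
  psA t c (σ * τ) - psA t c σ * psA t c τ

/-- The matrix of the pseudo-representation normalised at `(σ₀, τ₀)`. -/
noncomputable def psMat (t : G → T) (c σ₀ τ₀ : G) (σ : G) : Matrix (Fin 2) (Fin 2) T :=
  !![psA t c σ, psX t c σ τ₀;
     Ring.inverse (psX t c σ₀ τ₀) * psX t c σ₀ σ, psD t c σ]

theorem ringInverse_map {B : Type*} [CommRing B] (f : T →+* B) {u : T} (hu : IsUnit u) :
    f (Ring.inverse u) = Ring.inverse (f u) := by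
  obtain ⟨v, rfl⟩ := hu
  rw [Ring.inverse_unit, show f (v : T) = (Units.map f.toMonoidHom v : B) from rfl,
    Ring.inverse_unit]
  rfl

theorem psA_map {B : Type*} [CommRing B] (f : T →+* B) (h2 : IsUnit (2 : T)) (t : G → T) (c σ : G) :
    f (psA t c σ) = psA (fun g => f (t g)) c σ := by
  simp only [psA, map_mul, map_add, ringInverse_map f h2, map_ofNat]

theorem psX_map {B : Type*} [CommRing B] (f : T →+* B) (h2 : IsUnit (2 : T)) (t : G → T)
    (c σ τ : G) : f (psX t c σ τ) = psX (fun g => f (t g)) c σ τ := by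
  simp only [psX, map_sub, map_mul, psA_map f h2]

end Defs

section Model

variable {G T B : Type*} [Monoid G] [CommRing T] [CommRing B]
  (ι : T →+* B) (R : G →* Matrix (Fin 2) (Fin 2) B) (t : G → T) (c : G)
  (h2 : IsUnit (2 : T)) (hc : R c = !![1, 0; 0, -1]) (htr : ∀ g, ι (t g) = (R g).trace)

include h2 hc htr

theorem map_psA (σ : G) : ι (psA t c σ) = R σ 0 0 := by
  rw [psA, map_mul, map_add, htr, htr, map_mul R, hc, ringInverse_map ι h2, map_ofNat]
  simp only [Matrix.trace_fin_two, Matrix.mul_apply, Fin.sum_univ_two]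
  simp
  have h : IsUnit (2 : B) := by simpa [map_ofNat] using h2.map ι
  calc Ring.inverse 2 * (R σ 0 0 + R σ 1 1 + (R σ 0 0 + -R σ 1 1))
      = (Ring.inverse 2 * 2) * R σ 0 0 := by ring
    _ = R σ 0 0 := by rw [Ring.inverse_mul_cancel _ h, one_mul]

theorem map_psD (σ : G) : ι (psD t c σ) = R σ 1 1 := by
  rw [psD, map_mul, map_sub, htr, htr, map_mul R, hc, ringInverse_map ι h2, map_ofNat]
  simp only [Matrix.trace_fin_two, Matrix.mul_apply, Fin.sum_univ_two]
  simp
  have h : IsUnit (2 : B) := by simpa [map_ofNat] using h2.map ι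
  calc Ring.inverse 2 * (R σ 1 1 + R σ 1 1)
      = (Ring.inverse 2 * 2) * R σ 1 1 := by ring
    _ = R σ 1 1 := by rw [Ring.inverse_mul_cancel _ h, one_mul]

theorem map_psX (σ τ : G) : ι (psX t c σ τ) = R σ 0 1 * R τ 1 0 := by
  rw [psX, map_sub, map_mul, map_psA ι R t c h2 hc htr, map_psA ι R t c h2 hc htr,
    map_psA ι R t c h2 hc htr, map_mul R]
  simp [Matrix.mul_apply, Fin.sum_univ_two]

/-- Carayol's lemma in pseudo-representation form. -/
theorem exists_psMat_hom (hι : Function.Injective ι) {σ₀ τ₀ : G}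
    (hu : IsUnit (psX t c σ₀ τ₀)) :
    ∃ M : G →* Matrix (Fin 2) (Fin 2) T,
      (∀ σ, M σ = psMat t c σ₀ τ₀ σ) ∧ (∀ σ, (M σ).trace = t σ) ∧
        (∀ σ, ι (M σ).det = (R σ).det) := by
  have hX := map_psX ι R t c h2 hc htr
  have hu' : IsUnit (R σ₀ 0 1 * R τ₀ 1 0) := hX σ₀ τ₀ ▸ hu.map ι
  obtain ⟨hb, hγ⟩ := IsUnit.mul_iff.1 hu'
  obtain ⟨γ, hγ⟩ := hγ
  let D : (Matrix (Fin 2) (Fin 2) B)ˣ :=
    ⟨!![(γ : B), 0; 0, 1], !![((γ⁻¹ : Bˣ) : B), 0; 0, 1],
      by simp [Matrix.one_fin_two],
      by simp [Matrix.one_fin_two]⟩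
  have key : ∀ σ, (psMat t c σ₀ τ₀ σ).map ι = D.val * R σ * D.inv := by
    intro σ
    have h1 : ι (Ring.inverse (psX t c σ₀ τ₀) * psX t c σ₀ σ) = ((γ⁻¹ : Bˣ) : B) * R σ 1 0 := by
      rw [map_mul, hX, ringInverse_map ι hu, hX, ← hγ]
      obtain ⟨β, hβ⟩ := hb
      rw [← hβ, ← Units.val_mul, Ring.inverse_unit, _root_.mul_inv_rev, Units.val_mul]
      linear_combination ((γ⁻¹ : Bˣ) : B) * R σ 1 0 * β.inv_mul
    ext i j
    fin_cases i <;> fin_cases j
    · simp [psMat, D, Matrix.mul_apply, Matrix.vecMul, dotProduct, Fin.sum_univ_two, map_psA ι R t c h2 hc htr]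
      linear_combination -(R σ 0 0) * γ.mul_inv
    · simp [psMat, D, Matrix.mul_apply, Matrix.vecMul, dotProduct, Fin.sum_univ_two, hX, ← hγ, mul_comm]
    · simp only [psMat, D]
      simpa [Matrix.mul_apply, Matrix.vecMul, dotProduct, Fin.sum_univ_two, mul_comm] using h1
    · simp [psMat, D, Matrix.mul_apply, Matrix.vecMul, dotProduct, Fin.sum_univ_two, map_psD ι R t c h2 hc htr]
  have hinj : Function.Injective fun M : Matrix (Fin 2) (Fin 2) T => M.map ι :=
    Matrix.map_injective hι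
  refine ⟨{ toFun := psMat t c σ₀ τ₀, map_one' := hinj ?_, map_mul' := fun σ τ => hinj ?_ },
    fun σ => rfl, fun σ => hι ?_, fun σ => ?_⟩
  · show (psMat t c σ₀ τ₀ 1).map ι = (1 : Matrix (Fin 2) (Fin 2) T).map ι
    rw [key, map_one R, mul_one, D.val_inv, Matrix.map_one _ (map_zero ι) (map_one ι)]
  · show (psMat t c σ₀ τ₀ (σ * τ)).map ι = (psMat t c σ₀ τ₀ σ * psMat t c σ₀ τ₀ τ).map ι
    rw [Matrix.map_mul, key, key, key, map_mul R]
    simp only [mul_assoc, ← mul_assoc D.inv, D.inv_val, one_mul]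
  · show ι (psMat t c σ₀ τ₀ σ).trace = ι (t σ)
    rw [htr, AddMonoidHom.map_trace, key, Matrix.trace_mul_cycle, D.inv_val, one_mul]
  · show ι (psMat t c σ₀ τ₀ σ).det = _
    rw [RingHom.map_det, RingHom.mapMatrix_apply, key, Matrix.det_mul_comm, ← mul_assoc,
      D.inv_val, one_mul]

end Model

end Fermat.Agent.Datum
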