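/-
Residual side of Carayol's lemma: an absolutely irreducible two dimensional representation with
a split involution is the normalised pseudo-representation of its trace; conversely a normalised
lift is residually absolutely irreducible.
-/
import Fermat.Agent.Datum.Pseudo
import Fermat.Agent.Deform.MatRep

set_option autoImplicit false

noncomputable section

namespace Fermat.Agent.Datum

open Matrix
open scoped TensorProduct

section PowTr

variable {T : Type*} [CommRing T]

/-- Coefficients `(a, b)` with `M ^ k = a • M + b • 1` when `M ^ 2 = s • M - d • 1`. -/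
def powCoef (s d : T) : ℕ → T × T
  | 0 => (0, 1)
  | k + 1 => ((powCoef s d k).1 * s + (powCoef s d k).2, -((powCoef s d k).1 * d))

/-- The trace of the `k`-th power of a `2 × 2` matrix with trace `s` and determinant `d`. -/
def powTr (s d : T) (k : ℕ) : T := (powCoef s d k).1 * s + (powCoef s d k).2 * 2

theorem powCoef_map {B : Type*} [CommRing B] (f : T →+* B) (s d : T) (k : ℕ) :
    powCoef (f s) (f d) k = (f (powCoef s d k).1, f (powCoef s d k).2) := by
  induction k with
  | zero => simp [powCoef]
  | succ k ih => simp [powCoef, ih]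

theorem powTr_map {B : Type*} [CommRing B] (f : T →+* B) (s d : T) (k : ℕ) :
    powTr (f s) (f d) k = f (powTr s d k) := by
  simp [powTr, powCoef_map, map_ofNat]

theorem pow_eq_powCoef (M : Matrix (Fin 2) (Fin 2) T) (k : ℕ) :
    M ^ k = (powCoef M.trace M.det k).1 • M + (powCoef M.trace M.det k).2 • 1 := by
  induction k with
  | zero => simp [powCoef]
  | succ k ih =>
    have hsq : M * M = M.trace • M - M.det • 1 := by
      ext i j
      fin_cases i <;> fin_cases j <;>
        simp [Matrix.mul_apply, Matrix.trace_fin_two, Matrix.det_fin_two, Fin.sum_univ_two] <;>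
        ring
    rw [pow_succ, ih, add_mul, smul_mul_assoc, hsq, smul_mul_assoc, one_mul]
    ext i j
    simp [powCoef]
    ring

theorem trace_pow_eq_powTr (M : Matrix (Fin 2) (Fin 2) T) (k : ℕ) :
    (M ^ k).trace = powTr M.trace M.det k := by
  rw [pow_eq_powCoef, trace_add, trace_smul, trace_smul, trace_one, powTr]
  simp

end PowTr

section Field

variable {K W : Type*} [Field K] [AddCommGroup W] [Module K W]

/-- An involution of trace zero on a plane is diagonalisable. -/
theorem exists_eigenbasis (hW : Module.finrank K W = 2) (h2 : (2 : K) ≠ 0) (f : Module.End K W)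
    (hf : f * f = 1) (htr : LinearMap.trace K W f = 0) :
    ∃ b : Module.Basis (Fin 2) K W, LinearMap.toMatrix b b f = !![1, 0; 0, -1] := by
  have : FiniteDimensional K W := Module.finite_of_finrank_eq_succ hW
  have hne : ∀ s : K, s * s = 1 → ∃ v ≠ 0, f v = s • v := by
    intro s hs
    by_contra! h
    have hf' : f = (-s) • (1 : Module.End K W) := by
      refine LinearMap.ext fun v => ?_
      have h1 : f (f v) = v := LinearMap.congr_fun hf v
      by_contra hv
      refine h (f v + s • v) (fun h0 => hv ?_) ?_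
      · rw [LinearMap.smul_apply, Module.End.one_apply, neg_smul]
        exact eq_neg_of_add_eq_zero_left h0
      · rw [map_add, map_smul, h1, smul_add, smul_smul, hs, one_smul, add_comm]
    rw [hf', map_smul, Module.End.one_eq_id, LinearMap.trace_id, hW, smul_eq_mul,
      mul_eq_zero, neg_eq_zero] at htr
    rcases htr with h0 | h0
    · simp [h0] at hs
    · exact h2 (by exact_mod_cast h0)
  obtain ⟨v, hv0, hv⟩ := hne 1 (one_mul 1)
  obtain ⟨w, hw0, hw⟩ := hne (-1) (by simp)
  rw [one_smul] at hv
  rw [neg_one_smul] at hw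
  have hli : LinearIndependent K ![v, w] := by
    rw [LinearIndependent.pair_iff]
    intro x y hxy
    have h1 : x • v - y • w = 0 := by
      have := congrArg f hxy
      rwa [map_add, map_smul, map_smul, hv, hw, map_zero, smul_neg, ← sub_eq_add_neg] at this
    have h2x : (2 * x) • v = 0 := by
      have := congrArg₂ (· + ·) hxy h1
      simp only [add_zero] at this
      rw [← this]; module
    have hx : x = 0 := by simpa [h2, hv0] using h2x
    refine ⟨hx, ?_⟩
    simpa [hx, hw0] using hxy
  refine ⟨basisOfLinearIndependentOfCardEqFinrank hli (by simp [hW]), ?_⟩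
  set b := basisOfLinearIndependentOfCardEqFinrank hli (by simp [hW])
  have hb0 : b 0 = v := by simp [b]
  have hb1 : b 1 = w := by simp [b]
  ext i j
  fin_cases j <;> fin_cases i <;>
    simp [LinearMap.toMatrix_apply, hb0, hb1, hv, hw] <;>
    simp [← hb0, ← hb1]

/-- A family of operators, one of which is `diag(1,-1)` and whose two off-diagonal entries are
not identically zero, is irreducible. -/
theorem invariant_eq_bot_or_top {G : Type*} (h2 : (2 : K) ≠ 0) (b : Module.Basis (Fin 2) K W)
    (f : G → Module.End K W) (c : G) (hc : LinearMap.toMatrix b b (f c) = !![1, 0; 0, -1])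
    (hb : ∃ g, LinearMap.toMatrix b b (f g) 0 1 ≠ 0)
    (hc' : ∃ g, LinearMap.toMatrix b b (f g) 1 0 ≠ 0)
    (U : Submodule K W) (hU : ∀ g, ∀ x ∈ U, f g x ∈ U) : U = ⊥ ∨ U = ⊤ := by
  refine or_iff_not_imp_left.2 fun hne => ?_
  have hexp : ∀ x, f c x = b.repr x 0 • b 0 - b.repr x 1 • b 1 := by
    intro x
    refine b.repr.injective (Finsupp.ext fun i => ?_)
    have := congrFun (LinearMap.toMatrix_mulVec_repr b b (f c) x) i
    rw [hc] at this
    fin_cases i <;> simp_all [Matrix.mulVec, dotProduct, Fin.sum_univ_two]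
  have hproj : ∀ x ∈ U, ∀ i, b.repr x i • b i ∈ U := by
    intro x hx i
    have hx' : x = b.repr x 0 • b 0 + b.repr x 1 • b 1 := by
      conv_lhs => rw [← b.sum_repr x, Fin.sum_univ_two]
    have h0 : (2 * b.repr x 0) • b 0 ∈ U := by
      have := U.add_mem hx (hU c x hx)
      rw [hexp] at this
      convert this using 1
      conv_rhs => rw [hx']
      simp only [map_add, map_smul, b.repr_self]
      simp
      module
    have h0' : b.repr x 0 • b 0 ∈ U := by
      have := U.smul_mem (2⁻¹ : K) h0
      rwa [smul_smul, ← mul_assoc, inv_mul_cancel₀ h2, one_mul] at this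
    fin_cases i
    · exact h0'
    · have := U.sub_mem hx h0'
      rwa [sub_eq_iff_eq_add'.2 hx'] at this
  obtain ⟨x, hx, hx0⟩ := U.exists_mem_ne_zero_of_ne_bot hne
  have hone : b 0 ∈ U ∨ b 1 ∈ U := by
    by_contra! h
    refine hx0 (b.repr.injective (Finsupp.ext fun i => ?_))
    rw [map_zero, Finsupp.zero_apply]
    by_contra hi
    have := U.smul_mem (b.repr x i)⁻¹ (hproj x hx i)
    rw [smul_smul, inv_mul_cancel₀ hi, one_smul] at this
    fin_cases i
    · exact h.1 this
    · exact h.2 this
  have hstep : ∀ i j, b j ∈ U → (∃ g, LinearMap.toMatrix b b (f g) i j ≠ 0) → b i ∈ U := by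
    rintro i j hj ⟨g, hg⟩
    have h := hproj _ (hU g _ hj) i
    rw [← LinearMap.toMatrix_apply] at h
    have := U.smul_mem (LinearMap.toMatrix b b (f g) i j)⁻¹ h
    rwa [smul_smul, inv_mul_cancel₀ hg, one_smul] at this
  have hall : ∀ i, b i ∈ U := by
    intro i
    rcases hone with h | h <;> fin_cases i
    · exact h
    · exact hstep 1 0 h hc'
    · exact hstep 0 1 h hb
    · exact h
  exact top_unique fun y _ => by
    rw [← b.sum_repr y]
    exact U.sum_mem fun i _ => U.smul_mem _ (hall i)

end Field

section Residual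

variable {k : Type} [Field k]

/-- An absolutely irreducible residual representation with a trace zero involution is, in a
suitable basis, the normalised pseudo-representation of its trace. -/
theorem exists_basis_psMat (ρbar : ResidualGaloisRep k) (habs : ρbar.IsAbsolutelyIrreducible)
    (h2 : (2 : k) ≠ 0) (c : Deform.GQ) (hcc : ρbar.ρ c * ρbar.ρ c = 1)
    (htr : LinearMap.trace k ρbar.V (ρbar.ρ c) = 0) :
    ∃ σ₀ τ₀, ∃ b : Module.Basis (Fin 2) k ρbar.V,
      psX (fun g => LinearMap.trace k ρbar.V (ρbar.ρ g)) c σ₀ τ₀ ≠ 0 ∧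
        LinearMap.toMatrix b b (ρbar.ρ c) = !![1, 0; 0, -1] ∧
        ∀ σ, LinearMap.toMatrix b b (ρbar.ρ σ) =
          psMat (fun g => LinearMap.trace k ρbar.V (ρbar.ρ g)) c σ₀ τ₀ σ := by
  obtain ⟨b, hb⟩ := exists_eigenbasis ρbar.finrank_eq h2 (ρbar.ρ c)
    hcc htr
  set K := AlgebraicClosure k
  have hentry : ∀ i j : Fin 2, i ≠ j → ∃ σ, LinearMap.toMatrix b b (ρbar.ρ σ) i j ≠ 0 := by
    intro i j hij
    by_contra! hzero
    let bK : Module.Basis (Fin 2) K (ρbar.baseChange K).V :=
      Algebra.TensorProduct.basis K b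
    have hinv : ∀ σ, ∀ x ∈ Submodule.span K {bK j},
        (ρbar.baseChange K).ρ σ x ∈ Submodule.span K {bK j} := by
      intro σ x hx
      obtain ⟨a, rfl⟩ := Submodule.mem_span_singleton.1 hx
      rw [map_smul]
      refine Submodule.smul_mem _ _ ?_
      rw [Submodule.mem_span_singleton]
      refine ⟨bK.repr ((ρbar.baseChange K).ρ σ (bK j)) j, ?_⟩
      conv_rhs => rw [← bK.sum_repr ((ρbar.baseChange K).ρ σ (bK j))]
      rw [Finset.sum_eq_single j]
      · intro l _ hl
        have hli : l = i := by
          fin_cases l <;> fin_cases i <;> fin_cases j <;> simp_all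
        subst hli
        have h0 : LinearMap.toMatrix bK bK ((ρbar.baseChange K).ρ σ) l j = 0 := by
          refine (congrFun (congrFun
            (LinearMap.toMatrix_baseChange (A := K) (ρbar.ρ σ) b b) l) j).trans ?_
          rw [Matrix.map_apply, hzero σ, map_zero]
        rw [LinearMap.toMatrix_apply] at h0
        rw [h0, zero_smul]
      · simp
    rcases habs (Submodule.span K {bK j}) hinv with h | h
    · exact bK.ne_zero j (Submodule.span_singleton_eq_bot.1 h)
    · have hi : bK i ∈ Submodule.span K {bK j} := h ▸ Submodule.mem_top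
      obtain ⟨a, ha⟩ := Submodule.mem_span_singleton.1 hi
      have := congrArg (fun v => bK.repr v i) ha
      simp [hij.symm] at this
  obtain ⟨σ₀, hσ₀⟩ := hentry 0 1 (by decide)
  obtain ⟨τ₀, hτ₀⟩ := hentry 1 0 (by decide)
  set γ := LinearMap.toMatrix b b (ρbar.ρ τ₀) 1 0 with hγ
  let b' : Module.Basis (Fin 2) k ρbar.V := b.unitsSMul ![1, Units.mk0 γ hτ₀]
  have hb' : ∀ σ i j, LinearMap.toMatrix b' b' (ρbar.ρ σ) i j =
      (![1, γ] i)⁻¹ * LinearMap.toMatrix b b (ρbar.ρ σ) i j * ![1, γ] j := by
    intro σ i j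
    rw [LinearMap.toMatrix_apply, LinearMap.toMatrix_apply]
    simp only [b', Module.Basis.unitsSMul_apply, Units.smul_def, map_smul, Finsupp.smul_apply,
      Module.Basis.repr_unitsSMul, smul_eq_mul]
    fin_cases i <;> fin_cases j <;> simp [Units.val_inv_eq_inv_val] <;> ring
  let R : Deform.GQ →* Matrix (Fin 2) (Fin 2) k :=
    (LinearMap.toMatrixAlgEquiv b').toAlgHom.toRingHom.toMonoidHom.comp ρbar.ρ
  have hR : ∀ σ, R σ = LinearMap.toMatrix b' b' (ρbar.ρ σ) := fun σ => rfl
  have hcR : R c = !![1, 0; 0, -1] := by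
    ext i j
    rw [hR, hb', hb]
    fin_cases i <;> fin_cases j <;> simp [hτ₀]
  have htrR : ∀ g, (RingHom.id k) (LinearMap.trace k ρbar.V (ρbar.ρ g)) = (R g).trace := fun g =>
    LinearMap.trace_eq_matrix_trace k b' _
  have h2u : IsUnit (2 : k) := isUnit_iff_ne_zero.2 h2
  have hA := map_psA (RingHom.id k) R _ c h2u hcR htrR
  have hD := map_psD (RingHom.id k) R _ c h2u hcR htrR
  have hX := map_psX (RingHom.id k) R _ c h2u hcR htrR
  simp only [RingHom.id_apply] at hA hD hX
  have hτ : R τ₀ 1 0 = 1 := by rw [hR, hb', ← hγ]; simp [hτ₀]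
  have hσ : R σ₀ 0 1 ≠ 0 := by rw [hR, hb']; simpa [hτ₀] using hσ₀
  refine ⟨σ₀, τ₀, b', ?_, by rw [← hR, hcR], fun σ => ?_⟩
  · rw [hX, hτ, mul_one]; exact hσ
  · rw [← hR]
    ext i j
    fin_cases i <;> fin_cases j
    · simp [psMat, hA]
    · simp [psMat, hX, hτ]
    · simp [psMat, hX, hτ, Ring.inverse_eq_inv', ← mul_assoc, inv_mul_cancel₀ hσ]
    · simp [psMat, hD]

/-- A lift with `diag(1,-1)` and unit off-diagonal entries is residually absolutely
irreducible. -/
theorem residual_absIrr_toAdic {A : Type} [CommRing A] [IsLocalRing A] (M : Deform.MatRep A)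
    (hM : Deform.IsContRep A M) (h2 : IsUnit (2 : A)) (c : Deform.GQ)
    (hc : M c = !![1, 0; 0, -1]) (hb : ∃ g, IsUnit (M g 0 1)) (hc' : ∃ g, IsUnit (M g 1 0)) :
    (Deform.toAdic M hM).residual.IsAbsolutelyIrreducible := by
  set k := IsLocalRing.ResidueField A
  set K := AlgebraicClosure k
  let bK : Module.Basis (Fin 2) K ((Deform.toAdic M hM).residual.baseChange K).V :=
    Algebra.TensorProduct.basis K (Algebra.TensorProduct.basis k (Deform.stdBasis M hM))
  have hmat : ∀ g, LinearMap.toMatrix bK bK (((Deform.toAdic M hM).residual.baseChange K).ρ g) =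
      ((M g).map (algebraMap A k)).map (algebraMap k K) := by
    intro g
    refine (LinearMap.toMatrix_baseChange (A := K) (((Deform.toAdic M hM).ρ g).baseChange k)
      (Algebra.TensorProduct.basis k (Deform.stdBasis M hM))
      (Algebra.TensorProduct.basis k (Deform.stdBasis M hM))).trans ?_
    refine congrArg (fun X : Matrix (Fin 2) (Fin 2) k => X.map (algebraMap k K)) ?_
    exact (LinearMap.toMatrix_baseChange (A := k) ((Deform.toAdic M hM).ρ g)
      (Deform.stdBasis M hM) (Deform.stdBasis M hM)).trans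
      (congrArg (fun X : Matrix (Fin 2) (Fin 2) A => X.map (algebraMap A k))
        (Deform.toMatrix_stdBasis M hM g))
  intro U hU
  refine invariant_eq_bot_or_top ?_ bK _ c ?_ ?_ ?_ U hU
  · simpa [map_ofNat] using ((h2.map (algebraMap A k)).map (algebraMap k K)).ne_zero
  · rw [hmat, hc]
    ext i j
    fin_cases i <;> fin_cases j <;> simp
  · obtain ⟨g, hg⟩ := hb
    exact ⟨g, by rw [hmat]; simpa only [Matrix.map_apply] using
      ((hg.map (algebraMap A k)).map (algebraMap k K)).ne_zero⟩
  · obtain ⟨g, hg⟩ := hc'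
    exact ⟨g, by rw [hmat]; simpa only [Matrix.map_apply] using
      ((hg.map (algebraMap A k)).map (algebraMap k K)).ne_zero⟩

end Residual

end Fermat.Agent.Datum
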