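/-
Existence of `CuspForm.HeckeGaloisRepDatum N S 𝒪 θ (heckeLocal N S 𝒪 θ)` from a model of the
Hecke-valued Galois representation over an overring of the Hecke algebra.
-/
import Fermat.Agent.Datum.Residual
import Fermat.Agent.Datum.Closure
import Fermat.Agent.Datum.Local

set_option autoImplicit false
set_option synthInstance.maxHeartbeats 400000
set_option linter.unusedSectionVars false

noncomputable section

namespace Fermat.Agent.Datum

open IsLocalRing CuspForm Deform Polynomial Matrix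

/-- A two dimensional Galois representation over an overring of `𝒪 ⊗ 𝕋^S` with complex
conjugation `diag(1,-1)`, integral trace of finite level, and the expected Frobenius traces and
determinants. -/
structure HeckeTraceModel (N : ℕ) [NeZero N] (S : Set ℕ)
    (𝒪 : Type) [CommRing 𝒪] [IsDomain 𝒪] [IsDiscreteValuationRing 𝒪] : Type 1 where
  B : Type
  [instCommRing : CommRing B]
  [instAlgebra : Algebra 𝒪 B]
  j : heckeBaseAlgebra N S 𝒪 →ₐ[𝒪] B
  j_injective : Function.Injective j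
  R : GQ →* Matrix (Fin 2) (Fin 2) B
  c : GQ
  R_c : R c = !![1, 0; 0, -1]
  Λ : Submodule 𝒪 B
  Λ_fg : Λ.FG
  trace_mem : ∀ g, (R g).trace ∈ Λ
  level : ∀ n : ℕ, ∃ L : IntermediateField ℚ (AlgebraicClosure ℚ), FiniteDimensional ℚ L ∧
    ∀ g h : GQ, (∀ x ∈ L, g x = h x) → (R g).trace - (R h).trace ∈ maximalIdeal 𝒪 ^ n • Λ
  trace_frob : ∀ (ℓ : ℕ) (hℓ : ℓ.Prime) (hℓN : ¬ ℓ ∣ N) (hℓS : ℓ ∉ S),
    ∀ A : ValuationSubring (AlgebraicClosure ℚ), A.LiesOverPrime ℓ →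
      ∀ σ : GQ, A.IsFrobeniusAt σ ℓ →
        (R σ).trace = j (latticeBaseChange N S 𝒪
          (Algebra.TensorProduct.includeRight (heckeAlgebra.T hℓ hℓN hℓS))) ∧
        (R σ).det = (ℓ : B)

attribute [instance] HeckeTraceModel.instCommRing HeckeTraceModel.instAlgebra

variable (N : ℕ) [NeZero N] (S : Set ℕ)
  (𝒪 : Type) [CommRing 𝒪] [IsDomain 𝒪] [IsDiscreteValuationRing 𝒪]
  [IsAdicComplete (maximalIdeal 𝒪) 𝒪]
  (θ : heckeAlgebra N 2 S →+* ResidueField 𝒪)
  [Fact (HasIntegralStructure N 2)]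

/-- The trace function with values in `heckeLocal`. -/
theorem exists_heckeLocal_trace (Mo : HeckeTraceModel N S 𝒪) (hS : S.Finite) :
    ∃ (B : Type) (_ : CommRing B) (ι : heckeLocal N S 𝒪 θ →+* B)
      (R : GQ →* Matrix (Fin 2) (Fin 2) B) (t : GQ → heckeLocal N S 𝒪 θ),
      Function.Injective ι ∧ R Mo.c = !![1, 0; 0, -1] ∧ (∀ g, ι (t g) = (R g).trace) ∧
      (∀ n : ℕ, ∃ L : IntermediateField ℚ (AlgebraicClosure ℚ), FiniteDimensional ℚ L ∧
        ∀ g h : GQ, (∀ x ∈ L, g x = h x) →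
          t g - t h ∈ maximalIdeal (heckeLocal N S 𝒪 θ) ^ n) ∧
      ∀ (ℓ : ℕ) (hℓ : ℓ.Prime) (hℓN : ¬ ℓ ∣ N) (hℓS : ℓ ∉ S),
        ∀ A : ValuationSubring (AlgebraicClosure ℚ), A.LiesOverPrime ℓ →
          ∀ σ : GQ, A.IsFrobeniusAt σ ℓ →
            (R σ).trace = ι (heckeLocal.π N S 𝒪 θ (heckeAlgebra.T hℓ hℓN hℓS)) ∧
              (R σ).det = ι (ℓ : heckeLocal N S 𝒪 θ) := by
  classical
  obtain ⟨hsurj, e, hee, he⟩ := exists_idempotent_heckeLocal N S 𝒪 θ
  let I : Ideal Mo.B := Ideal.span {1 - Mo.j e}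
  let q : heckeBaseAlgebra N S 𝒪 →ₐ[𝒪] Mo.B ⧸ I := (Ideal.Quotient.mkₐ 𝒪 I).comp Mo.j
  let a : heckeBaseAlgebra N S 𝒪 →ₐ[𝒪] heckeLocal N S 𝒪 θ :=
    IsScalarTower.toAlgHom 𝒪 _ _
  have hker : ∀ y, a y = 0 ↔ q y = 0 := by
    intro y
    show algebraMap _ (heckeLocal N S 𝒪 θ) y = 0 ↔ Ideal.Quotient.mk I (Mo.j y) = 0
    rw [he, Ideal.Quotient.eq_zero_iff_mem, Ideal.mem_span_singleton']
    constructor
    · intro h
      refine ⟨Mo.j y, ?_⟩
      rw [mul_sub, mul_one, ← map_mul, mul_comm y e, h, map_zero, sub_zero]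
    · rintro ⟨z, hz⟩
      apply Mo.j_injective
      rw [map_mul, ← hz, map_zero,
        show Mo.j e * (z * (1 - Mo.j e)) = z * (Mo.j e - Mo.j e * Mo.j e) by ring,
        ← map_mul, hee, sub_self, mul_zero]
  -- descend `q` to `heckeLocal`
  let ι₀ : heckeLocal N S 𝒪 θ →+* Mo.B ⧸ I :=
    a.toRingHom.liftOfSurjective hsurj ⟨q.toRingHom, fun y hy => (hker y).1 hy⟩
  have hι₀ : ∀ y, ι₀ (a y) = q y := fun y =>
    RingHom.liftOfRightInverse_comp_apply _ _ _ ⟨q.toRingHom, _⟩ y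
  have hι₀inj : Function.Injective ι₀ := by
    rw [injective_iff_map_eq_zero]
    intro z hz
    obtain ⟨y, rfl⟩ := hsurj z
    exact (hker y).2 ((hι₀ y).symm.trans hz)
  let ι : heckeLocal N S 𝒪 θ →ₐ[𝒪] Mo.B ⧸ I :=
    { ι₀ with
      commutes' := fun r => by
        show ι₀ (algebraMap 𝒪 (heckeLocal N S 𝒪 θ) r) = _
        rw [← a.commutes r, hι₀, q.commutes] }
  let R : GQ →* Matrix (Fin 2) (Fin 2) (Mo.B ⧸ I) :=
    (Ideal.Quotient.mk I).mapMatrix.toMonoidHom.comp Mo.R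
  have hRtr : ∀ g, (R g).trace = Ideal.Quotient.mkₐ 𝒪 I (Mo.R g).trace := fun g =>
    (AddMonoidHom.map_trace (Ideal.Quotient.mk I) (Mo.R g)).symm
  -- lattice containing all traces and the image of `heckeLocal`
  set W : Submodule 𝒪 (Mo.B ⧸ I) := LinearMap.range ι.toLinearMap with hW
  set Λ : Submodule 𝒪 (Mo.B ⧸ I) :=
    Mo.Λ.map (Ideal.Quotient.mkₐ 𝒪 I).toLinearMap ⊔ W with hΛ
  have hΛfg : Λ.FG :=
    (Mo.Λ_fg.map _).sup (Module.Finite.iff_fg.1 (Module.Finite.range ι.toLinearMap))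
  have hmem : ∀ g, (R g).trace ∈ Λ := fun g => by
    rw [hRtr]
    exact Submodule.mem_sup_left (Submodule.mem_map_of_mem (Mo.trace_mem g))
  have hlev : ∀ n : ℕ, ∃ L : IntermediateField ℚ (AlgebraicClosure ℚ), FiniteDimensional ℚ L ∧
      ∀ g h : GQ, (∀ x ∈ L, g x = h x) →
        (R g).trace - (R h).trace ∈ maximalIdeal 𝒪 ^ n • Λ := by
    intro n
    obtain ⟨L, hL, hL'⟩ := Mo.level n
    refine ⟨L, hL, fun g h hgh => ?_⟩
    have h1 := Submodule.mem_map_of_mem (f := (Ideal.Quotient.mkₐ 𝒪 I).toLinearMap) (hL' g h hgh)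
    rw [Submodule.map_smul''] at h1
    rw [hRtr, hRtr, ← map_sub]
    exact Submodule.smul_mono le_rfl le_sup_left h1
  have hfrob : ∀ (ℓ : ℕ) (hℓ : ℓ.Prime) (hℓN : ¬ ℓ ∣ N) (hℓS : ℓ ∉ S),
      ∀ A : ValuationSubring (AlgebraicClosure ℚ), A.LiesOverPrime ℓ →
        ∀ σ : GQ, A.IsFrobeniusAt σ ℓ →
          (R σ).trace = ι (heckeLocal.π N S 𝒪 θ (heckeAlgebra.T hℓ hℓN hℓS)) ∧
            (R σ).det = ι (ℓ : heckeLocal N S 𝒪 θ) := by
    intro ℓ hℓ hℓN hℓS A hA σ hσ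
    obtain ⟨htr, hdet⟩ := Mo.trace_frob ℓ hℓ hℓN hℓS A hA σ hσ
    constructor
    · rw [hRtr, htr]
      exact (hι₀ _).symm
    · rw [map_natCast]
      show ((Ideal.Quotient.mk I).mapMatrix (Mo.R σ)).det = _
      rw [← RingHom.map_det, hdet, map_natCast]
  have htrW : ∀ g, (R g).trace ∈ W := by
    refine mem_of_forall_frobenius_pow hΛfg _ hmem hlev
      (hS.toFinset ∪ N.primeFactors) ?_
    intro ℓ hℓ hℓS A hA σ hσ k
    rw [Finset.mem_union, not_or, Set.Finite.mem_toFinset] at hℓS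
    have hℓN : ¬ ℓ ∣ N := fun hd =>
      hℓS.2 (Nat.mem_primeFactors.2 ⟨hℓ, hd, NeZero.ne N⟩)
    obtain ⟨htr, hdet⟩ := hfrob ℓ hℓ hℓN hℓS.1 A hA σ hσ
    rw [map_pow, trace_pow_eq_powTr, htr, hdet]
    exact ⟨_, (powTr_map ι.toRingHom _ _ k).symm⟩
  choose t ht using htrW
  obtain ⟨c, hc⟩ := exists_pow_smul_inf_le hΛfg (le_sup_right : W ≤ Λ)
  refine ⟨Mo.B ⧸ I, inferInstance, ι.toRingHom, R, t, hι₀inj, ?_, ht, fun n => ?_, hfrob⟩
  · show (Ideal.Quotient.mk I).mapMatrix (Mo.R Mo.c) = _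
    rw [Mo.R_c]
    ext i j
    fin_cases i <;> fin_cases j <;> simp
  · obtain ⟨L, hL, hL'⟩ := hlev (n + c)
    refine ⟨L, hL, fun g h hgh => ?_⟩
    have h1 : ι.toLinearMap (t g - t h) ∈ maximalIdeal 𝒪 ^ n • W := by
      refine hc n (Submodule.mem_inf.2 ⟨?_, ⟨_, rfl⟩⟩)
      rw [map_sub, ht, ht]
      exact hL' g h hgh
    rw [hW, ← Submodule.map_top, ← Submodule.map_smul''] at h1
    obtain ⟨x, hx, hxe⟩ := Submodule.mem_map.1 h1
    obtain rfl := hι₀inj hxe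
    refine Submodule.smul_induction_on hx (fun r hr y _ => ?_) fun x y hx hy => add_mem hx hy
    rw [Algebra.smul_def]
    exact Ideal.mul_mem_right _ _ (Deform.map_maximalIdeal_pow_le _ inferInstance n
      (Ideal.mem_map_of_mem _ hr))

/-- Charpoly coefficients of a residual representation. -/
theorem trace_det_of_charpoly {k : Type} [Field k] (ρbar : ResidualGaloisRep k) (σ : GQ) {s d : k}
    (h : LinearMap.charpoly (ρbar.ρ σ) = X ^ 2 - C s * X + C d) :
    LinearMap.trace k ρbar.V (ρbar.ρ σ) = s ∧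
      (LinearMap.toMatrix (Deform.resBasis ρbar) (Deform.resBasis ρbar) (ρbar.ρ σ)).det = d := by
  rw [← LinearMap.charpoly_toMatrix (ρbar.ρ σ) (Deform.resBasis ρbar), Matrix.charpoly_fin_two,
    ← LinearMap.trace_eq_matrix_trace] at h
  have h1 := congrArg (Polynomial.coeff · 1) h
  have h0 := congrArg (Polynomial.coeff · 0) h
  simp [coeff_X] at h1 h0
  exact ⟨h1, by rw [LinearMap.det_toMatrix]; exact h0⟩

/-- Existence of the Hecke Galois representation datum on `heckeLocal`, with residual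
representation `ρbar`. -/
theorem exists_heckeGaloisRepDatum (Mo : HeckeTraceModel N S 𝒪) (hS : S.Finite)
    (h2 : IsUnit (2 : 𝒪)) (ρbar : ResidualGaloisRep (ResidueField 𝒪))
    (habs : ρbar.IsAbsolutelyIrreducible) (S₀ : Finset ℕ)
    (hbar : ∀ (ℓ : ℕ) (hℓ : ℓ.Prime) (hℓN : ¬ ℓ ∣ N) (hℓS : ℓ ∉ S), ℓ ∉ S₀ →
      ∀ A : ValuationSubring (AlgebraicClosure ℚ), A.LiesOverPrime ℓ →
        ∀ σ : GQ, A.IsFrobeniusAt σ ℓ →
          LinearMap.charpoly (ρbar.ρ σ) =
            X ^ 2 - C (θ (heckeAlgebra.T hℓ hℓN hℓS)) * X + C ((ℓ : ResidueField 𝒪))) :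
    ∃ H : HeckeGaloisRepDatum N S 𝒪 θ (heckeLocal N S 𝒪 θ),
      H.π = heckeLocal.π N S 𝒪 θ ∧
      H.ρ.residual.IsEquiv
        (ρbar.baseChangeAlong (ResidueField.map (algebraMap 𝒪 (heckeLocal N S 𝒪 θ)))) := by
  classical
  obtain ⟨B, _, ι, R, t, hι, hcR, htr, hlev, hfrob⟩ := exists_heckeLocal_trace N S 𝒪 θ Mo hS
  set κ := ResidueField.map (algebraMap 𝒪 (heckeLocal N S 𝒪 θ)) with hκ
  set res := residue (heckeLocal N S 𝒪 θ) with hres
  set tb : GQ → ResidueField 𝒪 := fun g => LinearMap.trace _ ρbar.V (ρbar.ρ g) with htb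
  have h2T : IsUnit (2 : heckeLocal N S 𝒪 θ) := by
    simpa [map_ofNat] using h2.map (algebraMap 𝒪 (heckeLocal N S 𝒪 θ))
  -- residue of the trace
  have hmod : ∀ g, res (t g) = κ (tb g) := by
    obtain ⟨L₁, hL₁, hL₁'⟩ := hlev 1
    obtain ⟨L₂, hL₂, hL₂'⟩ := ρbar.factorsThroughFiniteLevel
    refine Density.forall_of_forall_frobenius_pow (L₁ ⊔ L₂) (fun g h hgh hg => ?_)
      (hS.toFinset ∪ N.primeFactors ∪ S₀) ?_
    · have h1 : res (t g) = res (t h) := by
        rw [← sub_eq_zero, ← map_sub, hres, residue_eq_zero_iff]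
        simpa using hL₁' g h fun x hx => hgh x (le_sup_left (a := L₁) (b := L₂) hx)
      have h3 : ρbar.ρ (g⁻¹ * h) = 1 := hL₂' _ fun x hx => by
        rw [AlgEquiv.mul_apply, ← hgh x (le_sup_right (a := L₁) (b := L₂) hx)]
        exact g.symm_apply_apply x
      have h4 : ρbar.ρ h = ρbar.ρ g := by
        rw [show h = g * (g⁻¹ * h) by group, map_mul, h3, mul_one]
      rw [← h1, hg, htb]
      simp only [h4]
    · intro ℓ hℓ hℓS A hA σ hσ k
      simp only [Finset.mem_union, not_or, Set.Finite.mem_toFinset] at hℓS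
      have hℓN : ¬ ℓ ∣ N := fun hd =>
        hℓS.1.2 (Nat.mem_primeFactors.2 ⟨hℓ, hd, NeZero.ne N⟩)
      obtain ⟨htrσ, hdetσ⟩ := hfrob ℓ hℓ hℓN hℓS.1.1 A hA σ hσ
      obtain ⟨hts, hds⟩ := trace_det_of_charpoly ρbar σ (hbar ℓ hℓ hℓN hℓS.1.1 hℓS.2 A hA σ hσ)
      have h1 : t (σ ^ k) = powTr (heckeLocal.π N S 𝒪 θ (heckeAlgebra.T hℓ hℓN hℓS.1.1))
          (ℓ : heckeLocal N S 𝒪 θ) k := hι (by
        rw [htr, map_pow, trace_pow_eq_powTr, htrσ, hdetσ, powTr_map])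
      have h2' : tb (σ ^ k) = powTr (θ (heckeAlgebra.T hℓ hℓN hℓS.1.1))
          (ℓ : ResidueField 𝒪) k := by
        simp only [htb]
        rw [LinearMap.trace_eq_matrix_trace _ (Deform.resBasis ρbar), ← Deform.barMat_apply,
          map_pow, trace_pow_eq_powTr, Deform.barMat_apply, hds,
          ← LinearMap.trace_eq_matrix_trace, hts]
      rw [h1, h2', ← powTr_map, ← powTr_map, map_natCast, map_natCast, hres,
        residue_heckeLocal_π]
  have htc : t Mo.c = 0 := hι (by rw [htr, hcR, map_zero]; simp [Matrix.trace_fin_two])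
  have htbc : tb Mo.c = 0 := κ.injective (by rw [← hmod, htc, map_zero, map_zero])
  have h2k : (2 : ResidueField 𝒪) ≠ 0 := by
    simpa [map_ofNat] using (h2.map (residue 𝒪)).ne_zero
  have hcc : ρbar.ρ Mo.c * ρbar.ρ Mo.c = 1 := by
    have ht2 : t (Mo.c * Mo.c) = 2 := hι (by
      rw [htr, map_mul, hcR, map_ofNat]; simp [Matrix.trace_fin_two]; norm_num)
    have htb2 : tb (Mo.c * Mo.c) = 2 := κ.injective (by rw [← hmod, ht2, map_ofNat, map_ofNat])
    set P := barMat ρbar Mo.c with hP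
    have hP0 : P.trace = 0 := by
      rw [hP, barMat_apply, ← LinearMap.trace_eq_matrix_trace]; exact htbc
    have hd : P.det = -1 := by
      have h3 : (P ^ 2).trace = 2 := by
        rw [hP, ← map_pow, pow_two, barMat_apply, ← LinearMap.trace_eq_matrix_trace]; exact htb2
      rw [trace_pow_eq_powTr, hP0] at h3
      simp [powTr, powCoef] at h3
      apply mul_left_cancel₀ h2k
      linear_combination -h3
    apply (LinearMap.toMatrix (resBasis ρbar) (resBasis ρbar)).injective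
    rw [LinearMap.toMatrix_mul, LinearMap.toMatrix_one, ← barMat_apply, ← hP, ← pow_two,
      pow_eq_powCoef, hP0, hd]
    simp [powCoef]
  obtain ⟨σ₀, τ₀, b, hx, hbc, hb⟩ :=
    exists_basis_psMat ρbar habs h2k Mo.c hcc htbc
  have hpsX : ∀ σ τ, res (psX t Mo.c σ τ) = κ (psX tb Mo.c σ τ) := fun σ τ => by
    rw [psX_map res h2T, psX_map κ (isUnit_iff_ne_zero.2 h2k)]
    simp only [hmod]
  have hu : IsUnit (psX t Mo.c σ₀ τ₀) := by
    refine notMem_maximalIdeal.1 fun h => hx ?_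
    rw [← residue_eq_zero_iff, ← hres, hpsX] at h
    exact κ.injective (h.trans (map_zero κ).symm)
  obtain ⟨M, hMdef, hMtr, hMdet⟩ := exists_psMat_hom ι R t Mo.c h2T hcR htr hι hu
  -- continuity
  have hM : IsContRep (heckeLocal N S 𝒪 θ) M := by
    intro n
    obtain ⟨L, hL, hL'⟩ := hlev n
    refine ⟨L, hL, fun σ hσ i j => ?_⟩
    have hcyc : ∀ x y, t (x * y) = t (y * x) := fun x y => hι (by
      rw [htr, htr, map_mul, map_mul, Matrix.trace_mul_comm])
    have hright : ∀ τ, t (τ * σ) - t τ ∈ maximalIdeal (heckeLocal N S 𝒪 θ) ^ n := fun τ =>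
      hL' _ _ fun x hx => by rw [AlgEquiv.mul_apply, hσ x hx]
    have hmid : ∀ τ τ', t (τ * σ * τ') - t (τ * τ') ∈
        maximalIdeal (heckeLocal N S 𝒪 θ) ^ n := fun τ τ' => by
      rw [hcyc (τ * σ), hcyc τ τ', ← mul_assoc]
      exact hright _
    have hA : ∀ τ τ', psA t Mo.c (τ * σ * τ') - psA t Mo.c (τ * τ') ∈
        maximalIdeal (heckeLocal N S 𝒪 θ) ^ n := fun τ τ' => by
      rw [psA, psA, ← mul_sub, add_sub_add_comm, ← mul_assoc Mo.c (τ * σ) τ',
        ← mul_assoc Mo.c τ σ, ← mul_assoc Mo.c τ τ']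
      exact Ideal.mul_mem_left _ _ (add_mem (hmid _ _) (hmid _ _))
    have hD : psD t Mo.c σ - psD t Mo.c 1 ∈ maximalIdeal (heckeLocal N S 𝒪 θ) ^ n := by
      rw [psD, psD, ← mul_sub, sub_sub_sub_comm, mul_one]
      exact Ideal.mul_mem_left _ _ (sub_mem (by simpa using hright 1) (hright _))
    rw [← map_one M, Matrix.sub_apply, hMdef, hMdef]
    fin_cases i <;> fin_cases j
    · simpa [psMat] using hA 1 1
    · have h1 := hA 1 τ₀
      have h2 := Ideal.mul_mem_right (psA t Mo.c τ₀) _ (hA 1 1)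
      simp only [one_mul, mul_one] at h1 h2
      have := sub_mem h1 h2
      simpa [psMat, psX, sub_mul, sub_sub_sub_comm] using this
    · have h1 := hA σ₀ 1
      have h2 := Ideal.mul_mem_left _ (psA t Mo.c σ₀) (hA 1 1)
      simp only [one_mul, mul_one] at h1 h2
      have := Ideal.mul_mem_left _ (Ring.inverse (psX t Mo.c σ₀ τ₀)) (sub_mem h1 h2)
      simpa [psMat, psX, mul_sub, sub_sub_sub_comm] using this
    · simpa [psMat] using hD
  have hMc : M Mo.c = !![1, 0; 0, -1] := by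
    have hAc : psA t Mo.c Mo.c = 1 := hι (by
      rw [map_psA ι R t Mo.c h2T hcR htr, hcR, map_one]; rfl)
    have hDc : psD t Mo.c Mo.c = -1 := hι (by
      rw [map_psD ι R t Mo.c h2T hcR htr, hcR, map_neg, map_one]; rfl)
    have hX1 : psX t Mo.c Mo.c τ₀ = 0 := hι (by
      rw [map_psX ι R t Mo.c h2T hcR htr, hcR, map_zero]; simp)
    have hX2 : psX t Mo.c σ₀ Mo.c = 0 := hι (by
      rw [map_psX ι R t Mo.c h2T hcR htr, hcR, map_zero]; simp)
    rw [hMdef, psMat, hAc, hDc, hX1, hX2, mul_zero]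
  have h01 : M σ₀ 0 1 = psX t Mo.c σ₀ τ₀ := by rw [hMdef]; rfl
  have h10 : M τ₀ 1 0 = 1 := by
    rw [hMdef]
    exact Ring.inverse_mul_cancel _ hu
  let H : HeckeGaloisRepDatum N S 𝒪 θ (heckeLocal N S 𝒪 θ) :=
    { π := heckeLocal.π N S 𝒪 θ
      residue_π := residue_heckeLocal_π N S 𝒪 θ
      adjoin_range_π := adjoin_range_heckeLocal_π N S 𝒪 θ
      exists_point := exists_point_heckeLocal N S 𝒪 θ
      residue_surjective := residue_comp_algebraMap_surjective N S 𝒪 θ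
      ρ := toAdic M hM
      charpoly_frob := fun ℓ hℓ hℓN hℓS A hA σ hσ => by
        obtain ⟨htrσ, hdetσ⟩ := hfrob ℓ hℓ hℓN hℓS A hA σ hσ
        rw [← LinearMap.charpoly_toMatrix _ (stdBasis M hM), toMatrix_stdBasis,
          Matrix.charpoly_fin_two, hMtr]
        congr 3
        · exact congrArg C (hι ((htr σ).trans htrσ))
        · exact hι (by rw [hMdet, hdetσ])
      residual_absIrr := residual_absIrr_toAdic M hM h2T Mo.c hMc
        ⟨σ₀, h01 ▸ hu⟩ ⟨τ₀, h10 ▸ isUnit_one⟩ }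
  refine ⟨H, rfl, ?_⟩
  -- residual comparison
  let algκ : Algebra (ResidueField 𝒪) (ResidueField (heckeLocal N S 𝒪 θ)) := κ.toAlgebra
  refine ⟨⟨(Algebra.TensorProduct.basis (ResidueField (heckeLocal N S 𝒪 θ))
      (stdBasis M hM)).equiv
    (Algebra.TensorProduct.basis (ResidueField (heckeLocal N S 𝒪 θ)) b) (Equiv.refl _),
    fun σ x => equiv_intertwines _ _ _ _ ?_ x⟩⟩
  refine (LinearMap.toMatrix_baseChange _ _ _ _).trans (Eq.trans ?_
    (LinearMap.toMatrix_baseChange _ _ _ _).symm)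
  rw [toMatrix_stdBasis, hb, hMdef]
  ext i j
  fin_cases i <;> fin_cases j <;>
    simp only [psMat, Matrix.map_apply, Matrix.of_apply, Matrix.cons_val', Matrix.cons_val_zero,
      Matrix.cons_val_one, Matrix.cons_val_fin_one, Fin.isValue, Fin.mk_zero', Fin.zero_eta,
      Fin.mk_one]
  · exact (psA_map res h2T t Mo.c σ).trans (by
      simp only [hmod]; exact (psA_map κ (isUnit_iff_ne_zero.2 h2k) tb Mo.c σ).symm)
  · exact hpsX _ _
  · show res (Ring.inverse _ * _) = κ (Ring.inverse _ * _)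
    rw [map_mul, map_mul, ringInverse_map res hu, ringInverse_map κ (isUnit_iff_ne_zero.2 hx),
      hpsX, hpsX]
  · show res (psD t Mo.c σ) = κ (psD tb Mo.c σ)
    simp only [psD, map_mul, map_sub, ringInverse_map res h2T,
      ringInverse_map κ (isUnit_iff_ne_zero.2 h2k), hmod, map_ofNat]

end Fermat.Agent.Datum
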