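/-
Determinant and trace of the rational Tate module representation at Frobenius elements, over
`ℚ_[p] ⊗ 𝕋` itself: the quadratic relation propagates by density, and the determinant trick
applies because `diag(1,-1)` is in the image.
-/
import Fermat.Agent.Datum.Closure
import Fermat.Agent.GAL.FromSpecialization
import Fermat.Agent.GAL.SpecialRep
import Fermat.Agent.GAL.Interface

set_option autoImplicit false
set_option synthInstance.maxHeartbeats 400000

noncomputable section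

open scoped TensorProduct
open Matrix IsLocalRing

namespace Fermat.Agent.Datum

open GAL

section Ring

variable {O E : Type} [CommRing O] [CommRing E] [Algebra O E] {p : ℕ}

/-- The quadratic relation extends from Frobenius elements to the whole Galois group
(version over an arbitrary coefficient ring). -/
theorem quadRel_of_frobenius_ring {m : ℕ} (hsep : Separated O (p : O) E)
    (ρ : Deform.GQ →* Matrix (Fin 2) (Fin 2) E) (d : Deform.GQ →* E)
    (hb : ∀ g, Bdd O (p : O) m (ρ g))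
    (hcont : ∀ n, ∃ L : IntermediateField ℚ (AlgebraicClosure ℚ), FiniteDimensional ℚ L ∧
      ∀ σ : Deform.GQ, (∀ x ∈ L, σ x = x) → Near O (p : O) n (ρ σ - 1))
    (hd : ∀ n, ∃ L : IntermediateField ℚ (AlgebraicClosure ℚ), FiniteDimensional ℚ L ∧
      ∀ g h : Deform.GQ, (∀ x ∈ L, h x = x) →
        ∃ y : O, d (g * h) - d g = algebraMap O E ((p : O) ^ n * y))
    (S : Finset ℕ)
    (hFrob : ∀ ℓ : ℕ, ℓ.Prime → ℓ ∉ S → ∀ A : ValuationSubring (AlgebraicClosure ℚ),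
      A.LiesOverPrime ℓ → ∀ σ : Deform.GQ, A.IsFrobeniusAt σ ℓ →
        d σ = (ℓ : E) ∧ ∃ c : O, ρ σ * ρ σ - algebraMap O E c • ρ σ + (ℓ : E) • 1 = 0)
    (g : Deform.GQ) : QuadRel (ρ g) (d g) := by
  refine quadRel_of_near hsep (N := ρ g⁻¹)
    (by rw [← map_mul, inv_mul_cancel, map_one]) (hb g⁻¹) fun n => ?_
  obtain ⟨L₁, hL₁, h₁⟩ := hcont (n + m + m)
  obtain ⟨L₂, hL₂, h₂⟩ := hd n
  obtain ⟨ℓ, hℓ, hℓS, A, hA, σ, hσ, k, hk⟩ :=
    exists_frobenius_pow_on (L₁ ⊔ L₂) (IntermediateField.finiteDimensional_sup L₁ L₂) g S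
  obtain ⟨hdσ, c₀, hc₀⟩ := hFrob ℓ hℓ hℓS A hA σ hσ
  set h := (σ ^ k)⁻¹ * g with hh
  have hfix : ∀ x ∈ L₁ ⊔ L₂, h x = x := by
    intro x hx
    rw [hh, AlgEquiv.mul_apply, ← hk x hx, ← AlgEquiv.mul_apply, inv_mul_cancel, AlgEquiv.one_apply]
  have hg : σ ^ k * h = g := mul_inv_cancel_left _ _
  have hpow := pow_rel (X₀ := ρ σ) (c := algebraMap O E c₀) (d := (ℓ : E)) hc₀ k
  rw [← map_pow ρ σ k, ← hdσ, ← map_pow d σ k] at hpow
  obtain ⟨y, hy⟩ : ∃ y : O, powTrace (algebraMap O E c₀) (d σ) k = algebraMap O E y := by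
    refine ⟨powTrace c₀ ((ℓ : O)) k, ?_⟩
    rw [hdσ, map_powTrace, map_natCast]
  rw [hy] at hpow
  refine ⟨algebraMap O E y, ?_⟩
  set P := ρ (σ ^ k) with hP
  set M := ρ g with hM
  have hMP : Near O (p : O) (n + m) (M - P) := by
    have := (hb (σ ^ k)).mul_near (h₁ h fun x hx => hfix x (le_sup_left (a := L₁) (b := L₂) hx))
    rwa [mul_sub, mul_one, ← map_mul, hg] at this
  obtain ⟨z, hz⟩ := h₂ (σ ^ k) h fun x hx => hfix x (le_sup_right (a := L₁) (b := L₂) hx)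
  rw [hg] at hz
  have hdiff : Near O (p : O) n
      ((d g - d (σ ^ k)) • (1 : Matrix (Fin 2) (Fin 2) E)) := by
    intro i j
    rw [hz, Matrix.smul_apply, Matrix.one_apply, smul_eq_mul]
    split_ifs
    · exact ⟨z, by rw [mul_one]⟩
    · exact ⟨0, by rw [mul_zero, mul_zero, map_zero]⟩
  have key : M * M - algebraMap O E y • M + d g • 1 =
      (M - P) * M + P * (M - P) + -(algebraMap O E y • (M - P))
        + (d g - d (σ ^ k)) • 1 := by
    rw [sub_mul, mul_sub, smul_sub, sub_smul]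
    linear_combination (norm := abel) hpow
  rw [key]
  exact (((hMP.mul_bdd (hb g)).add ((hb (σ ^ k)).mul_near hMP)).add
    ((hMP.mono (Nat.le_add_right n m)).smul y).neg).add hdiff

end Ring

section Tate

variable {N : ℕ} [NeZero N] {p : ℕ} [Fact p.Prime]

/-- `ℤ_[p] ⊗ 𝕋 → ℚ_[p] ⊗ 𝕋`. -/
def intHeckeHom : (ℤ_[p] ⊗[ℤ] HeckeT N) →ₐ[ℤ_[p]] RatHecke N p :=
  Algebra.TensorProduct.map (Algebra.ofId ℤ_[p] ℚ_[p]) (AlgHom.id ℤ (HeckeT N))

theorem intHeckeHom_tmul (a : ℤ_[p]) (t : HeckeT N) :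
    intHeckeHom (a ⊗ₜ t) = (a : ℚ_[p]) ⊗ₜ t := rfl

theorem mem_intHecke_iff (x : RatHecke N p) :
    x ∈ intHecke N p ↔ ∃ y, intHeckeHom y = x := by
  have h : ∀ y, (Algebra.TensorProduct.map (PadicInt.Coe.ringHom : ℤ_[p] →+* ℚ_[p]).toIntAlgHom
      (AlgHom.id ℤ (HeckeT N))).toRingHom y = intHeckeHom y := by
    intro y
    induction y using TensorProduct.induction_on with
    | zero => simp
    | tmul a t => rfl
    | add x y hx hy => rw [map_add, map_add, hx, hy]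
  simp only [intHecke, RingHom.mem_range, h]

set_option maxHeartbeats 1600000 in
/-- Determinant and trace at Frobenius elements of the rational Tate module representation. -/
theorem tateRep_trace_det_frobenius [Module.Finite ℤ (HeckeT N)] (D : TateRep N p)
    (hlev : TorsionFiniteLevel N p) (hquad : TorsionQuadratic N p)
    {ℓ : ℕ} (hℓ : ℓ.Prime) (hℓN : ¬ ℓ ∣ N) (hℓp : ℓ ≠ p)
    {A : ValuationSubring (AlgebraicClosure ℚ)} (hA : A.LiesOverPrime ℓ)
    {σ : Deform.GQ} (hσ : A.IsFrobeniusAt σ ℓ) :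
    (D.rho σ).trace =
        toRatHecke N p (CuspForm.heckeAlgebra.T hℓ hℓN (Set.notMem_empty ℓ)) ∧
      (D.rho σ).det = (ℓ : RatHecke N p) := by
  classical
  let O := ℤ_[p] ⊗[ℤ] HeckeT N
  let alg : Algebra O (RatHecke N p) := (intHeckeHom (N := N) (p := p)).toRingHom.toAlgebra
  have hφ : ∀ y : O, algebraMap O (RatHecke N p) y = intHeckeHom y := fun y => rfl
  have hsep : Separated O (p : O) (RatHecke N p) := by
    intro x hx
    let Λ : Submodule ℤ_[p] (RatHecke N p) :=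
      LinearMap.range (intHeckeHom (N := N) (p := p)).toLinearMap
    have hΛ : Λ.FG := Module.Finite.iff_fg.1 (Module.Finite.range _)
    refine (Submodule.mem_bot ℤ_[p]).1
      (mem_of_forall_mem_sup_pow_smul hΛ (W := ⊥) ?_ fun n => ?_)
    · obtain ⟨y, hy⟩ := hx 0
      exact ⟨_, (hy.trans (hφ _)).symm⟩
    · obtain ⟨y, hy⟩ := hx n
      refine ⟨0, Submodule.zero_mem _, Submodule.zero_mem _, ?_⟩
      have hO : (p : O) ^ n * y = ((p : ℤ_[p]) ^ n) • y := by
        refine ((Algebra.smul_def ((p : ℤ_[p]) ^ n) y).trans ?_).symm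
        rw [map_pow, map_natCast]
      rw [sub_zero, hy, hφ, hO, map_smul]
      have hpm : (p : ℤ_[p]) ^ n ∈ maximalIdeal ℤ_[p] ^ n :=
        Ideal.pow_mem_pow (by rw [PadicInt.maximalIdeal_eq_span_p]; exact Ideal.mem_span_singleton_self _) n
      exact Submodule.smul_mem_smul hpm (show intHeckeHom y ∈ Λ from ⟨y, rfl⟩)
  let d : Deform.GQ →* RatHecke N p :=
    (algebraMap ℤ_[p] (RatHecke N p)).toMonoidHom.comp (cycQ p)
  have hdF : ∀ q : ℕ, q.Prime → q ≠ p → ∀ B : ValuationSubring (AlgebraicClosure ℚ),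
      B.LiesOverPrime q → ∀ τ : Deform.GQ, B.IsFrobeniusAt τ q → d τ = (q : RatHecke N p) := by
    intro q hq hqp B hB τ hτ
    show algebraMap ℤ_[p] (RatHecke N p) (cycQ p τ) = _
    rw [cycQ_frobenius p hB hq hτ hqp, map_natCast]
  have hd : ∀ n, ∃ L : IntermediateField ℚ (AlgebraicClosure ℚ), FiniteDimensional ℚ L ∧
      ∀ g h : Deform.GQ, (∀ x ∈ L, h x = x) →
        ∃ y : O, d (g * h) - d g = algebraMap O (RatHecke N p) ((p : O) ^ n * y) := by
    intro n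
    obtain ⟨L, hL, hσ'⟩ := cycQ_level p n
    refine ⟨L, hL, fun g h hh => ?_⟩
    obtain ⟨y, hy⟩ := hσ' h hh
    refine ⟨algebraMap ℤ_[p] O (cycQ p g * y), ?_⟩
    have key : cycQ p (g * h) - cycQ p g = (p : ℤ_[p]) ^ n * (cycQ p g * y) := by
      rw [map_mul, hy]; ring
    show algebraMap ℤ_[p] (RatHecke N p) (cycQ p (g * h)) -
      algebraMap ℤ_[p] (RatHecke N p) (cycQ p g) = _
    rw [← map_sub, key, hφ,
      show ((p : O) ^ n) = algebraMap ℤ_[p] O ((p : ℤ_[p]) ^ n) by rw [map_pow, map_natCast],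
      ← map_mul, AlgHom.commutes]
  have hb : ∀ g, Bdd O (p : O) D.denom (D.rho g) := by
    intro g i j
    obtain ⟨y, hy⟩ := (mem_intHecke_iff _).1 (D.bounded g i j)
    exact ⟨y, by rw [hφ, hφ, map_pow, map_natCast, hy]⟩
  have hcont : ∀ n, ∃ L : IntermediateField ℚ (AlgebraicClosure ℚ), FiniteDimensional ℚ L ∧
      ∀ τ : Deform.GQ, (∀ x ∈ L, τ x = x) → Near O (p : O) n (D.rho τ - 1) := by
    intro n
    obtain ⟨k, hk⟩ := D.near_one n
    obtain ⟨L, hL, hfix⟩ := hlev k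
    refine ⟨L, hL, fun τ hτ i j => ?_⟩
    obtain ⟨z, hz, he⟩ := hk τ (hfix τ hτ) i j
    obtain ⟨y, rfl⟩ := (mem_intHecke_iff _).1 hz
    exact ⟨y, by rw [Matrix.sub_apply, he, hφ, map_mul, map_pow, map_natCast]⟩
  have hFrob : ∀ q : ℕ, q.Prime → q ∉ (N * p).divisors →
      ∀ B : ValuationSubring (AlgebraicClosure ℚ), B.LiesOverPrime q →
        ∀ τ : Deform.GQ, B.IsFrobeniusAt τ q → d τ = (q : RatHecke N p) ∧
          ∃ c : O, D.rho τ * D.rho τ - algebraMap O (RatHecke N p) c • D.rho τ +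
            (q : RatHecke N p) • 1 = 0 := by
    intro q hq hqS B hB τ hτ
    have hqNp : ¬ q ∣ N * p := fun h => hqS (Nat.mem_divisors.2
      ⟨h, mul_ne_zero (NeZero.ne N) (Fact.out (p := p.Prime)).ne_zero⟩)
    have hqN : ¬ q ∣ N := fun h => hqNp (h.mul_right p)
    refine ⟨hdF q hq (fun h => hqNp (h ▸ dvd_mul_left p N)) B hB τ hτ,
      1 ⊗ₜ CuspForm.heckeAlgebra.T hq hqN (Set.notMem_empty q), ?_⟩
    rw [hφ, intHeckeHom_tmul, PadicInt.coe_one]
    exact D.quad τ q hq hqN (hquad q hq hqNp B hB τ hτ)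
  have hQ := quadRel_of_frobenius_ring hsep D.rho d hb hcont hd (N * p).divisors hFrob
  have h2 : IsUnit (2 : RatHecke N p) := by
    simpa [map_ofNat] using
      (isUnit_iff_ne_zero.2 (two_ne_zero : (2 : ℚ_[p]) ≠ 0)).map (algebraMap ℚ_[p] (RatHecke N p))
  have hns : ∀ P : Ideal (RatHecke N p), P.IsMaximal → ∃ g, ¬ ScalarMod P (D.rho g) := by
    obtain ⟨g₀, hg₀⟩ := D.exists_diag
    exact fun P hP => ⟨g₀, by rw [hg₀]; exact not_scalarMod_diag h2 hP⟩
  have hdet : (D.rho σ).det = (ℓ : RatHecke N p) := by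
    rw [det_eq_of_quadRel D.rho d hQ hns σ, hdF ℓ hℓ hℓp A hA σ hσ]
  have hℓNp : ¬ ℓ ∣ N * p := fun h => ((Nat.Prime.dvd_mul hℓ).1 h).elim hℓN fun h' =>
    hℓp ((Nat.prime_dvd_prime_iff_eq hℓ (Fact.out (p := p.Prime))).1 h')
  exact ⟨trace_eq_of_rel (N := D.rho σ⁻¹) (by rw [← map_mul, inv_mul_cancel, map_one]) hdet
    (D.quad σ ℓ hℓ hℓN (hquad ℓ hℓ hℓNp A hA σ hσ)), hdet⟩

end Tate

end Fermat.Agent.Datum
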