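/-
The Hecke trace model over `Frac 𝒪 ⊗ 𝕋` coming from the rational Tate module package, and the
resulting existence theorem for `HeckeGaloisRepDatum` on `heckeLocal`.
-/
import Fermat.Agent.Datum.Main
import Fermat.Agent.Datum.TateFrob
import Fermat.Agent.GAL.PointRep

set_option autoImplicit false
set_option synthInstance.maxHeartbeats 400000
set_option maxHeartbeats 800000
set_option linter.unusedSectionVars false

noncomputable section

open scoped TensorProduct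
open Matrix IsLocalRing CuspForm Polynomial

namespace Fermat.Agent.Datum

open GAL

variable {N : ℕ} [NeZero N] {S : Set ℕ} {p : ℕ} [Fact p.Prime]
  {𝒪 : Type} [CommRing 𝒪] [IsDomain 𝒪] [IsDiscreteValuationRing 𝒪] [CharZero 𝒪]
  [IsAdicComplete (maximalIdeal 𝒪) 𝒪] [Fact (HasIntegralStructure N 2)]
  {K : Type} [Field K] [CharZero K] [Algebra 𝒪 K] [IsFractionRing 𝒪 K]

theorem torsionFree_int_flat (M : Type*) [AddCommGroup M] [IsAddTorsionFree M] :
    Module.Flat ℤ M :=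
  inferInstance

variable (N S) in
/-- `𝕋^S ≅ lattice algebra → 𝕋`. -/
def fromLattice : ↥(heckeLatticeAlgebra N S) →ₐ[ℤ] HeckeT N :=
  (Subalgebra.inclusion (heckeAlgebra_mono (Set.empty_subset S))).comp
    ((AlgEquiv.ofBijective (latticeRestrictHom N S)
      (latticeRestrictHom_bijective N S Fact.out)).symm.toAlgHom)

theorem fromLattice_latticeRestrictHom (t : heckeAlgebra N 2 S) :
    fromLattice N S (latticeRestrictHom N S t) =
      Subalgebra.inclusion (heckeAlgebra_mono (k := 2) (Set.empty_subset S)) t := by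
  show Subalgebra.inclusion (heckeAlgebra_mono (k := 2) (Set.empty_subset S)) ((AlgEquiv.ofBijective (latticeRestrictHom N S)
    (latticeRestrictHom_bijective N S Fact.out)).symm (latticeRestrictHom N S t)) = _
  congr 1
  exact (AlgEquiv.ofBijective (latticeRestrictHom N S)
    (latticeRestrictHom_bijective N S Fact.out)).symm_apply_apply t

theorem fromLattice_injective : Function.Injective (fromLattice N S) :=
  (Subalgebra.inclusion_injective (heckeAlgebra_mono (k := 2) (Set.empty_subset S))).comp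
    (AlgEquiv.injective _)

variable (N S 𝒪 K) in
/-- `𝒪 ⊗ 𝕋^S → Frac 𝒪 ⊗ 𝕋`. -/
def modelMap : heckeBaseAlgebra N S 𝒪 →ₐ[𝒪] (K ⊗[ℤ] HeckeT N) :=
  Algebra.TensorProduct.map (Algebra.ofId 𝒪 (K)) (fromLattice N S)

theorem modelMap_injective : Function.Injective (modelMap N S 𝒪 K) := by
  have : IsAddTorsionFree K := .of_isTorsionFree K _
  have := torsionFree_int_flat (K)
  have := heckeLatticeAlgebra.isAddTorsionFree N S
  have := torsionFree_int_flat ↥(heckeLatticeAlgebra N S)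
  let f : 𝒪 →ₗ[ℤ] K := (algebraMap 𝒪 (K)).toIntAlgHom.toLinearMap
  let g := (fromLattice N S).toLinearMap
  have h : ∀ x : 𝒪 ⊗[ℤ] ↥(heckeLatticeAlgebra N S),
      modelMap N S 𝒪 K x = LinearMap.lTensor _ g (LinearMap.rTensor _ f x) := by
    intro x
    induction x using TensorProduct.induction_on with
    | zero => exact (map_zero (modelMap N S 𝒪 K)).trans (by simp)
    | tmul a t => rfl
    | add x y hx hy => rw [map_add, map_add, ← hx, ← hy]; exact map_add (modelMap N S 𝒪 K) x y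
  intro x y hxy
  apply Module.Flat.rTensor_preserves_injective_linearMap (M := ↥(heckeLatticeAlgebra N S)) f
    (IsFractionRing.injective 𝒪 (K))
  apply Module.Flat.lTensor_preserves_injective_linearMap (M := K) g
    fromLattice_injective
  exact (h x).symm.trans (hxy.trans (h y))

theorem modelMap_T {ℓ : ℕ} (hℓ : ℓ.Prime) (hℓN : ¬ ℓ ∣ N) (hℓS : ℓ ∉ S) :
    modelMap N S 𝒪 K (latticeBaseChange N S 𝒪
        (Algebra.TensorProduct.includeRight (heckeAlgebra.T hℓ hℓN hℓS))) =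
      (1 : K) ⊗ₜ heckeAlgebra.T hℓ hℓN (Set.notMem_empty ℓ) := by
  show Algebra.TensorProduct.map (Algebra.ofId 𝒪 (K)) (fromLattice N S)
    ((1 : 𝒪) ⊗ₜ latticeRestrictHom N S (heckeAlgebra.T hℓ hℓN hℓS)) = _
  rw [Algebra.TensorProduct.map_tmul, fromLattice_latticeRestrictHom, map_one]
  rfl

/-- Trace difference of nearby elements of a bounded matrix representation. -/
theorem exists_trace_sub {E : Type*} [CommRing E] {G : Type*} [Group G]
    (ρ : G →* Matrix (Fin 2) (Fin 2) E) (P : Subring E) (u v : E)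
    (hb : ∀ g i j, v * ρ g i j ∈ P) (g h : G)
    (hs : ∀ i j, ∃ y ∈ P, ρ (g⁻¹ * h) i j - (1 : Matrix (Fin 2) (Fin 2) E) i j = u * y) :
    ∃ z, (ρ h).trace - (ρ g).trace = u * z ∧ v * z ∈ P := by
  choose y hy he using hs
  refine ⟨∑ i, ∑ j, ρ g i j * y j i, ?_, ?_⟩
  · have h1 : ρ h - ρ g = ρ g * (ρ (g⁻¹ * h) - 1) := by
      rw [mul_sub, mul_one, ← map_mul, mul_inv_cancel_left]
    rw [← Matrix.trace_sub, h1, Matrix.trace, Finset.mul_sum]
    refine Finset.sum_congr rfl fun i _ => ?_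
    rw [Matrix.diag_apply, Matrix.mul_apply, Finset.mul_sum]
    refine Finset.sum_congr rfl fun j _ => ?_
    rw [Matrix.sub_apply, he]
    ring
  · rw [Finset.mul_sum]
    refine Subring.sum_mem _ fun i _ => ?_
    rw [Finset.mul_sum]
    refine Subring.sum_mem _ fun j _ => ?_
    rw [← mul_assoc]
    exact Subring.mul_mem _ (hb g i j) (hy j i)

/-- The trace model attached to the Tate module package. -/
theorem exists_heckeTraceModel (hp𝒪 : (p : 𝒪) ∈ maximalIdeal 𝒪) (hpS : p ∈ S)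
    [Module.Finite ℤ (HeckeT N)] (D : TateRep N p) (hlev : TorsionFiniteLevel N p)
    (hquad : TorsionQuadratic N p) (K : Type) [Field K] [CharZero K] [Algebra 𝒪 K]
    [IsFractionRing 𝒪 K] : Nonempty (HeckeTraceModel N S 𝒪) := by
  obtain ⟨ζ⟩ := exists_padicInt_hom (p := p) hp𝒪
  let η : ℚ_[p] →+* K := IsFractionRing.lift (K := ℚ_[p]) (g := (algebraMap 𝒪 K).comp ζ)
    ((IsFractionRing.injective 𝒪 K).comp (padicInt_hom_injective ζ))
  have hη : ∀ a : ℤ_[p], η (a : ℚ_[p]) = algebraMap 𝒪 K (ζ a) := fun a => by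
    rw [show (a : ℚ_[p]) = algebraMap ℤ_[p] ℚ_[p] a from rfl, IsFractionRing.lift_algebraMap]
    rfl
  let χ : RatHecke N p →ₐ[ℤ] (K ⊗[ℤ] HeckeT N) :=
    Algebra.TensorProduct.map η.toIntAlgHom (AlgHom.id ℤ _)
  let ψ : (𝒪 ⊗[ℤ] HeckeT N) →ₐ[𝒪] (K ⊗[ℤ] HeckeT N) :=
    Algebra.TensorProduct.map (Algebra.ofId 𝒪 K) (AlgHom.id ℤ _)
  have hint : ∀ x ∈ intHecke N p, χ x ∈ LinearMap.range ψ.toLinearMap := by
    intro x hx
    obtain ⟨y, rfl⟩ := (mem_intHecke_iff _).1 hx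
    induction y using TensorProduct.induction_on with
    | zero => exact ⟨0, by simp⟩
    | tmul a t =>
      refine ⟨ζ a ⊗ₜ t, ?_⟩
      show ψ (ζ a ⊗ₜ t) = χ (intHeckeHom (a ⊗ₜ t))
      rw [intHeckeHom_tmul]
      show algebraMap 𝒪 K (ζ a) ⊗ₜ[ℤ] t = η (a : ℚ_[p]) ⊗ₜ[ℤ] t
      rw [hη]
    | add a b ha hb =>
      rw [map_add (intHeckeHom (N := N) (p := p)), map_add χ]
      exact Submodule.add_mem _ (ha ((mem_intHecke_iff _).2 ⟨a, rfl⟩))
        (hb ((mem_intHecke_iff _).2 ⟨b, rfl⟩))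
  have hpK : ((p : K) ^ D.denom) ≠ 0 := pow_ne_zero _ <| by
    rw [← map_natCast (algebraMap 𝒪 K)]
    exact (map_ne_zero_iff _ (IsFractionRing.injective 𝒪 K)).2
      (Nat.cast_ne_zero.2 (Fact.out (p := p.Prime)).ne_zero)
  let u : K ⊗[ℤ] HeckeT N := ((p : K) ^ D.denom)⁻¹ ⊗ₜ 1
  have hu : ∀ y, u * ((p : K ⊗[ℤ] HeckeT N) ^ D.denom * y) = y := by
    intro y
    rw [← mul_assoc, ← map_natCast (Algebra.TensorProduct.includeLeft :
      K →ₐ[ℤ] K ⊗[ℤ] HeckeT N) p, ← map_pow, Algebra.TensorProduct.includeLeft_apply,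
      Algebra.TensorProduct.tmul_mul_tmul, one_mul, inv_mul_cancel₀ hpK,
      ← Algebra.TensorProduct.one_def, one_mul]
  let R : Deform.GQ →* Matrix (Fin 2) (Fin 2) (K ⊗[ℤ] HeckeT N) :=
    χ.toRingHom.mapMatrix.toMonoidHom.comp D.rho
  have hR : ∀ g, (R g).trace = χ (D.rho g).trace := fun g =>
    (AddMonoidHom.map_trace χ.toRingHom (D.rho g)).symm
  have hbddTr : ∀ g, (p : RatHecke N p) ^ D.denom * (D.rho g).trace ∈ intHecke N p := fun g => by
    rw [Matrix.trace_fin_two, mul_add]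
    exact Subring.add_mem _ (D.bounded g 0 0) (D.bounded g 1 1)
  set Λ : Submodule 𝒪 (K ⊗[ℤ] HeckeT N) :=
    (LinearMap.range ψ.toLinearMap).map (LinearMap.mulLeft 𝒪 u) with hΛ
  have hscale : ∀ x, (p : RatHecke N p) ^ D.denom * x ∈ intHecke N p → χ x ∈ Λ := by
    intro x hx
    refine ⟨_, hint _ hx, ?_⟩
    rw [LinearMap.mulLeft_apply, map_mul, map_pow, map_natCast, hu]
  obtain ⟨c, hc⟩ := D.exists_diag
  refine ⟨{
    B := K ⊗[ℤ] HeckeT N
    j := modelMap N S 𝒪 K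
    j_injective := modelMap_injective
    R := R
    c := c
    R_c := ?_
    Λ := Λ
    Λ_fg := (Module.Finite.iff_fg.1 (Module.Finite.range _)).map _
    trace_mem := fun g => hR g ▸ hscale _ (hbddTr g)
    level := ?_
    trace_frob := ?_ }⟩
  · show χ.toRingHom.mapMatrix (D.rho c) = _
    rw [hc]
    ext i j
    fin_cases i <;> fin_cases j <;> simp
  · intro n
    obtain ⟨k, hk⟩ := D.near_one n
    obtain ⟨L, hL, hfix⟩ := hlev k
    refine ⟨L, hL, fun g h hgh => ?_⟩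
    have hs : ∀ x ∈ L, (g⁻¹ * h) x = x := fun x hx => by
      rw [AlgEquiv.mul_apply, ← hgh x hx]; exact g.symm_apply_apply x
    obtain ⟨z, hz, hzint⟩ :=
      exists_trace_sub D.rho (intHecke N p) ((p : RatHecke N p) ^ n)
        ((p : RatHecke N p) ^ D.denom) D.bounded g h (hk _ (hfix _ hs))
    have hpm : (p : 𝒪) ^ n ∈ maximalIdeal 𝒪 ^ n := Ideal.pow_mem_pow hp𝒪 n
    have hmem := Submodule.smul_mem_smul hpm (hscale z hzint)
    have heq : χ (D.rho h).trace - χ (D.rho g).trace = ((p : 𝒪) ^ n) • χ z := by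
      rw [← map_sub, hz, map_mul, map_pow, map_natCast]
      refine Eq.symm ((Algebra.smul_def ((p : 𝒪) ^ n) (χ z)).trans ?_)
      rw [map_pow, map_natCast]
    have hmem' : χ (D.rho h).trace - χ (D.rho g).trace ∈ maximalIdeal 𝒪 ^ n • Λ := heq ▸ hmem
    rw [hR, hR, ← neg_sub]
    exact Submodule.neg_mem _ hmem'
  · intro ℓ hℓ hℓN hℓS A hA σ hσ
    obtain ⟨htr, hdet⟩ := tateRep_trace_det_frobenius D hlev hquad hℓ hℓN
      (fun h => hℓS (h ▸ hpS)) hA hσ
    constructor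
    · rw [hR, htr, modelMap_T hℓ hℓN hℓS]
      show χ ((1 : ℚ_[p]) ⊗ₜ _) = _
      rw [show χ ((1 : ℚ_[p]) ⊗ₜ[ℤ] (heckeAlgebra.T hℓ hℓN (Set.notMem_empty ℓ) : HeckeT N)) =
        η 1 ⊗ₜ[ℤ] (heckeAlgebra.T hℓ hℓN (Set.notMem_empty ℓ) : HeckeT N) from rfl, map_one]
    · show (χ.toRingHom.mapMatrix (D.rho σ)).det = _
      rw [← RingHom.map_det, hdet, map_natCast]

/-- Existence of the datum on `heckeLocal` from the Tate module package. -/
theorem exists_heckeGaloisRepDatum_of_tateRep (hp2 : p ≠ 2)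
    (hp𝒪 : (p : 𝒪) ∈ maximalIdeal 𝒪) (hpS : p ∈ S) (hS : S.Finite)
    [Module.Finite ℤ (HeckeT N)] (D : TateRep N p) (hlev : TorsionFiniteLevel N p)
    (hquad : TorsionQuadratic N p)
    (θ : heckeAlgebra N 2 S →+* ResidueField 𝒪) (ρbar : ResidualGaloisRep (ResidueField 𝒪))
    (habs : ρbar.IsAbsolutelyIrreducible) (S₀ : Finset ℕ)
    (hbar : ∀ (ℓ : ℕ) (hℓ : ℓ.Prime) (hℓN : ¬ ℓ ∣ N) (hℓS : ℓ ∉ S), ℓ ∉ S₀ →
      ∀ A : ValuationSubring (AlgebraicClosure ℚ), A.LiesOverPrime ℓ →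
        ∀ σ : Deform.GQ, A.IsFrobeniusAt σ ℓ →
          LinearMap.charpoly (ρbar.ρ σ) =
            X ^ 2 - C (θ (heckeAlgebra.T hℓ hℓN hℓS)) * X + C ((ℓ : ResidueField 𝒪))) :
    ∃ H : HeckeGaloisRepDatum N S 𝒪 θ (heckeLocal N S 𝒪 θ),
      H.π = heckeLocal.π N S 𝒪 θ ∧
      H.ρ.residual.IsEquiv
        (ρbar.baseChangeAlong (ResidueField.map (algebraMap 𝒪 (heckeLocal N S 𝒪 θ)))) := by
  have : CharZero (FractionRing 𝒪) :=
    charZero_of_injective_algebraMap (IsFractionRing.injective 𝒪 (FractionRing 𝒪))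
  obtain ⟨Mo⟩ := exists_heckeTraceModel (S := S) hp𝒪 hpS D hlev hquad (FractionRing 𝒪)
  refine exists_heckeGaloisRepDatum N S 𝒪 θ Mo hS ?_ ρbar habs S₀ hbar
  refine notMem_maximalIdeal.1 fun h2 => ?_
  have hco : Nat.Coprime p 2 := (Nat.coprime_primes Fact.out Nat.prime_two).2 hp2
  have hz : (Int.gcdA p 2 : ℤ) * p + Int.gcdB p 2 * 2 = 1 := by
    have := Int.gcd_eq_gcd_ab (p : ℤ) 2
    rw [show Int.gcd (p : ℤ) 2 = 1 from hco] at this
    push_cast at this
    linarith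
  have h1 := congrArg (Int.cast : ℤ → 𝒪) hz
  push_cast at h1
  exact (maximalIdeal.isMaximal 𝒪).ne_top ((Ideal.eq_top_iff_one _).2
    (h1 ▸ Ideal.add_mem _ (Ideal.mul_mem_left _ _ hp𝒪) (Ideal.mul_mem_left _ _ h2)))

end Fermat.Agent.Datum
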