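/-
Existence of the Hecke Galois representation datum on `heckeLocal`, with the Tate module inputs
of `HK.TateFinal` plugged in; the remaining hypothesis is the existence of specialisations.
-/
import Fermat.Agent.Datum.FromTate
import Fermat.Agent.HK.TateFinal
import Fermat.Agent.GAL.FromSpecialization
import Fermat.Agent.HK.HeckeFinal
import Fermat.Agent.MF.IntStruct.Hecke

set_option autoImplicit false
set_option synthInstance.maxHeartbeats 400000

noncomputable section

namespace Fermat.Agent.Datum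

open ModularCurve CuspForm IsLocalRing Polynomial

/-- Existence of `HeckeGaloisRepDatum N S 𝒪 θ (heckeLocal N S 𝒪 θ)` for a residually absolutely
irreducible `θ`, given specialisations at good primes. -/
theorem exists_heckeGaloisRepDatum_of_specializationExists
    {N : ℕ} [NeZero N] [Fact (HasIntegralStructure N 2)] {S : Set ℕ} {p : ℕ} [Fact p.Prime]
    {𝒪 : Type} [CommRing 𝒪] [IsDomain 𝒪] [IsDiscreteValuationRing 𝒪] [CharZero 𝒪]
    [IsAdicComplete (maximalIdeal 𝒪) 𝒪]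
    (hspec : HeckeOperatorsCommuteBar N →
      letI := heckeModuleBar N
      ∀ (_ : SMulCommClass (AlgebraicClosure ℚ ≃ₐ[ℚ] AlgebraicClosure ℚ) HeckeAlg (JZero N)),
        SpecializationExists (K := ℚ) (L := AlgebraicClosure ℚ) N p (JZero N))
    (hp2 : p ≠ 2) (hp𝒪 : (p : 𝒪) ∈ maximalIdeal 𝒪) (hpS : p ∈ S) (hS : S.Finite)
    (θ : heckeAlgebra N 2 S →+* ResidueField 𝒪) (ρbar : ResidualGaloisRep (ResidueField 𝒪))
    (habs : ρbar.IsAbsolutelyIrreducible) (S₀ : Finset ℕ)
    (hbar : ∀ (ℓ : ℕ) (hℓ : ℓ.Prime) (hℓN : ¬ ℓ ∣ N) (hℓS : ℓ ∉ S), ℓ ∉ S₀ →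
      ∀ A : ValuationSubring (AlgebraicClosure ℚ), A.LiesOverPrime ℓ →
        ∀ σ : Deform.GQ, A.IsFrobeniusAt σ ℓ →
          LinearMap.charpoly (ρbar.ρ σ) =
            X ^ 2 - C (θ (heckeAlgebra.T hℓ hℓN hℓS)) * X + C ((ℓ : ResidueField 𝒪))) :
    ∃ H : HeckeGaloisRepDatum N S 𝒪 θ (heckeLocal N S 𝒪 θ),
      H.π = heckeLocal.π N S 𝒪 θ ∧
      H.ρ.residual.IsEquiv
        (ρbar.baseChangeAlong (ResidueField.map (algebraMap 𝒪 (heckeLocal N S 𝒪 θ)))) := by
  have : Module.Finite ℤ (GAL.HeckeT N) := MF.IntStruct.moduleFinite_heckeAlgebra N 2 ∅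
  obtain ⟨D⟩ := HK.exists_tateRep N p
  exact exists_heckeGaloisRepDatum_of_tateRep hp2 hp𝒪 hpS hS D (HK.torsionFiniteLevel N p)
    (GAL.torsion_properties_of_specializationExists N p (HK.Corr.heckeOperatorsCommuteBar N)
      (HK.Corr.smulCommClass_heckeModuleBar N)
      (hspec (HK.Corr.heckeOperatorsCommuteBar N))).1 θ ρbar habs S₀ hbar

end Fermat.Agent.Datum
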